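import Mathlib

set_option autoImplicit false
set_option linter.unusedSectionVars false

namespace Fermat.Agent.S21

section PermDim

variable {X : Type} [Fintype X] [DecidableEq X]

namespace PermDim

lemma funLeft_eq_toLin' (σ : Equiv.Perm X) :
    LinearMap.funLeft ℂ ℂ σ = Matrix.toLin' (σ.permMatrix ℂ) := by
  refine LinearMap.ext fun v => ?_
  rw [Matrix.toLin'_apply, Matrix.permMatrix_mulVec]
  rfl

lemma trace_funLeft (σ : Equiv.Perm X) :
    LinearMap.trace ℂ (X → ℂ) (LinearMap.funLeft ℂ ℂ σ) =
      (Nat.card (Function.fixedPoints σ) : ℂ) := by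
  rw [funLeft_eq_toLin', Matrix.trace_toLin'_eq, Matrix.trace_permutation,
    Nat.card_coe_set_eq]

lemma trace_one_fun : LinearMap.trace ℂ (X → ℂ) 1 = (Nat.card X : ℂ) := by
  rw [LinearMap.trace_one, Module.finrank_fintype_fun_eq_card, Nat.card_eq_fintype_card]

lemma funLeft_mul (σ τ : Equiv.Perm X) :
    LinearMap.funLeft ℂ ℂ σ * LinearMap.funLeft ℂ ℂ τ = LinearMap.funLeft ℂ ℂ (τ * σ) := by
  refine LinearMap.ext fun v => ?_
  funext x
  rfl

lemma funLeft_one : LinearMap.funLeft ℂ ℂ (1 : Equiv.Perm X) = 1 := by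
  refine LinearMap.ext fun v => ?_
  funext x
  rfl

/-- The invariants of a permutation are the functions on the orbit space. -/
lemma finrank_ker_funLeft_sub_one (σ : Equiv.Perm X) :
    Module.finrank ℂ (LinearMap.ker (LinearMap.funLeft ℂ ℂ σ - 1)) =
      Nat.card (MulAction.orbitRel.Quotient (Subgroup.zpowers σ) X) := by
  classical
  let Q := MulAction.orbitRel.Quotient (Subgroup.zpowers σ) X
  let π : X → Q := Quotient.mk''
  have hπ : Function.Surjective π := Quotient.mk''_surjective
  let φ : (Q → ℂ) →ₗ[ℂ] (X → ℂ) := LinearMap.funLeft ℂ ℂ π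
  have hφinj : Function.Injective φ := LinearMap.funLeft_injective_of_surjective ℂ ℂ π hπ
  have hrange : LinearMap.range φ = LinearMap.ker (LinearMap.funLeft ℂ ℂ σ - 1) := by
    ext v
    rw [LinearMap.mem_range, LinearMap.mem_ker]
    constructor
    · rintro ⟨g, rfl⟩
      rw [LinearMap.sub_apply, sub_eq_zero]
      funext x
      change g (π (σ x)) = g (π x)
      have hq : π (σ x) = π x := by
        apply Quotient.sound'
        rw [MulAction.orbitRel_apply]
        exact ⟨⟨σ, Subgroup.mem_zpowers σ⟩, rfl⟩
      rw [hq]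
    · intro hv
      rw [LinearMap.sub_apply, sub_eq_zero] at hv
      have hσ : ∀ x, v (σ x) = v x := fun x => congrFun hv x
      -- invariance under the whole cyclic group
      let S : Subgroup (Equiv.Perm X) :=
        { carrier := {g | ∀ x, v (g x) = v x}
          mul_mem' := by
            intro a b ha hb x
            change v (a (b x)) = v x
            rw [ha, hb]
          one_mem' := fun x => rfl
          inv_mem' := by
            intro a ha x
            have := ha (a⁻¹ x)
            rw [Equiv.Perm.inv_def, Equiv.apply_symm_apply] at this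
            rw [Equiv.Perm.inv_def]
            exact this.symm }
      have hS : Subgroup.zpowers σ ≤ S := by
        rw [Subgroup.zpowers_le]
        exact hσ
      have hinv : ∀ a b : X, (MulAction.orbitRel (Subgroup.zpowers σ) X) a b → v a = v b := by
        intro a b hab
        rw [MulAction.orbitRel_apply] at hab
        obtain ⟨g, rfl⟩ := hab
        exact hS g.2 b
      refine ⟨Quotient.lift v hinv, ?_⟩
      funext x
      rfl
  rw [← hrange, LinearMap.finrank_range_of_inj hφinj, Module.finrank_fintype_fun_eq_card,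
    Nat.card_eq_fintype_card]

end PermDim

open PermDim in
/-- anti-invariants of an involution -/
theorem finrank_ker_funLeft_add_one (σ : Equiv.Perm X) (h2 : ∀ x, σ (σ x) = x) :
    2 * Module.finrank ℂ (LinearMap.ker (LinearMap.funLeft ℂ ℂ σ + 1)) + Nat.card (Function.fixedPoints σ)
      = Nat.card X := by
  have hSS : ∀ v : X → ℂ, LinearMap.funLeft ℂ ℂ σ (LinearMap.funLeft ℂ ℂ σ v) = v := by
    intro v
    funext x
    change v (σ (σ x)) = v x
    rw [h2]
  let P : (X → ℂ) →ₗ[ℂ] (X → ℂ) := (1 / 2 : ℂ) • (1 - LinearMap.funLeft ℂ ℂ σ)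
  have hproj : LinearMap.IsProj (LinearMap.ker (LinearMap.funLeft ℂ ℂ σ + 1)) P := by
    constructor
    · intro v
      rw [LinearMap.mem_ker]
      simp only [P, LinearMap.smul_apply, LinearMap.sub_apply, LinearMap.add_apply,
        Module.End.one_apply, map_smul, map_sub, hSS]
      module
    · intro v hv
      rw [LinearMap.mem_ker, LinearMap.add_apply, Module.End.one_apply] at hv
      have hv' : LinearMap.funLeft ℂ ℂ σ v = -v := eq_neg_of_add_eq_zero_left hv
      simp only [P, LinearMap.smul_apply, LinearMap.sub_apply, Module.End.one_apply, hv']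
      module
  have htr := hproj.trace
  simp only [P, map_smul, map_sub, trace_one_fun, trace_funLeft, smul_eq_mul] at htr
  have h : (2 * Module.finrank ℂ (LinearMap.ker (LinearMap.funLeft ℂ ℂ σ + 1)) +
      Nat.card (Function.fixedPoints σ) : ℂ) = (Nat.card X : ℂ) := by
    rw [← htr]
    ring
  exact_mod_cast h

open PermDim in
/-- invariants of a permutation of order dividing three -/
theorem finrank_ker_funLeft_sub_one_of_cube (σ : Equiv.Perm X) (h3 : ∀ x, σ (σ (σ x)) = x) :
    3 * Module.finrank ℂ (LinearMap.ker (LinearMap.funLeft ℂ ℂ σ - 1))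
      = Nat.card X + 2 * Nat.card (Function.fixedPoints σ) := by
  have hSSS : ∀ v : X → ℂ, LinearMap.funLeft ℂ ℂ σ (LinearMap.funLeft ℂ ℂ σ
      (LinearMap.funLeft ℂ ℂ σ v)) = v := by
    intro v
    funext x
    change v (σ (σ (σ x))) = v x
    rw [h3]
  let P : (X → ℂ) →ₗ[ℂ] (X → ℂ) :=
    (1 / 3 : ℂ) • (1 + LinearMap.funLeft ℂ ℂ σ + LinearMap.funLeft ℂ ℂ (σ * σ))
  have hsq : ∀ v : X → ℂ, LinearMap.funLeft ℂ ℂ (σ * σ) v =
      LinearMap.funLeft ℂ ℂ σ (LinearMap.funLeft ℂ ℂ σ v) := fun v => rfl
  have hproj : LinearMap.IsProj (LinearMap.ker (LinearMap.funLeft ℂ ℂ σ - 1)) P := by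
    constructor
    · intro v
      rw [LinearMap.mem_ker]
      simp only [P, LinearMap.smul_apply, LinearMap.sub_apply, LinearMap.add_apply,
        Module.End.one_apply, map_smul, map_add, hsq, hSSS]
      module
    · intro v hv
      rw [LinearMap.mem_ker, LinearMap.sub_apply, Module.End.one_apply, sub_eq_zero] at hv
      simp only [P, LinearMap.smul_apply, LinearMap.add_apply, Module.End.one_apply, hsq, hv]
      module
  have hfix : Function.fixedPoints (σ * σ) = Function.fixedPoints σ := by
    ext x
    simp only [Function.mem_fixedPoints, Function.IsFixedPt, Equiv.Perm.coe_mul,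
      Function.comp_apply]
    constructor
    · intro h
      have := h3 x
      rw [h] at this
      exact this
    · intro h
      rw [h, h]
  have htr := hproj.trace
  simp only [P, map_smul, map_add, trace_one_fun, trace_funLeft, smul_eq_mul, hfix] at htr
  have h : (3 * Module.finrank ℂ (LinearMap.ker (LinearMap.funLeft ℂ ℂ σ - 1)) : ℂ) =
      (Nat.card X : ℂ) + 2 * (Nat.card (Function.fixedPoints σ) : ℂ) := by
    rw [← htr]
    ring
  exact_mod_cast h

open PermDim in
/-- kernel of the norm operator of a permutation of order dividing `n` -/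
theorem finrank_ker_sum_funLeft_pow (σ : Equiv.Perm X) (n : ℕ) (hn : 0 < n) (h : ∀ x, (σ ^ n) x = x) :
    Module.finrank ℂ (LinearMap.ker (∑ k ∈ Finset.range n, LinearMap.funLeft ℂ ℂ (⇑(σ ^ k)))) +
      Nat.card (MulAction.orbitRel.Quotient (Subgroup.zpowers σ) X) = Nat.card X := by
  set Nm : (X → ℂ) →ₗ[ℂ] (X → ℂ) := ∑ k ∈ Finset.range n, LinearMap.funLeft ℂ ℂ (⇑(σ ^ k))
    with hNm
  have hNm_apply : ∀ (v : X → ℂ) (x : X), Nm v x = ∑ k ∈ Finset.range n, v ((σ ^ k) x) := by
    intro v x
    rw [hNm, LinearMap.sum_apply, Finset.sum_apply]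
    rfl
  have hrange : LinearMap.range Nm = LinearMap.ker (LinearMap.funLeft ℂ ℂ σ - 1) := by
    ext v
    rw [LinearMap.mem_range, LinearMap.mem_ker, LinearMap.sub_apply, Module.End.one_apply,
      sub_eq_zero]
    constructor
    · rintro ⟨w, rfl⟩
      funext x
      change Nm w (σ x) = Nm w x
      rw [hNm_apply, hNm_apply]
      have e1 : ∀ k, w ((σ ^ k) (σ x)) = w ((σ ^ (k + 1)) x) := by
        intro k
        rw [pow_succ, Equiv.Perm.mul_apply]
      simp only [e1]
      have e2 := Finset.sum_range_succ' (fun k => w ((σ ^ k) x)) n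
      have e3 := Finset.sum_range_succ (fun k => w ((σ ^ k) x)) n
      rw [e3] at e2
      simp only [pow_zero, Equiv.Perm.one_apply, h] at e2
      exact (add_right_cancel e2).symm
    · intro hv
      have hσ : ∀ x, v (σ x) = v x := fun x => congrFun hv x
      have hk : ∀ (k : ℕ) (x : X), v ((σ ^ k) x) = v x := by
        intro k
        induction k with
        | zero => intro x; rfl
        | succ k ih =>
          intro x
          rw [pow_succ, Equiv.Perm.mul_apply, ih, hσ]
      refine ⟨(n : ℂ)⁻¹ • v, ?_⟩
      funext x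
      rw [hNm_apply]
      simp only [Pi.smul_apply, smul_eq_mul, hk, Finset.sum_const, Finset.card_range,
        nsmul_eq_mul]
      have hn0 : (n : ℂ) ≠ 0 := Nat.cast_ne_zero.mpr hn.ne'
      field_simp
  have hrn := LinearMap.finrank_range_add_finrank_ker Nm
  rw [hrange, finrank_ker_funLeft_sub_one, Module.finrank_fintype_fun_eq_card,
    ← Nat.card_eq_fintype_card] at hrn
  omega

end PermDim

end Fermat.Agent.S21
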