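import Fermat.Agent.S21.Defs
import Fermat.Agent.S21.PermDim
import Fermat.Agent.S20.Comb
import Fermat.Prelude.Def_ModularCurve_GenusNumerics

/-!
# S21 WP-C3: orbit counting on `SL(2, ℤ) ⧸ Γ₀(N)`

`orbit_count`: `μ + 2 - n_S - n_T - n_{ST} = 2 * genusFormula N`, where `n_g` is the number of
orbits of the cyclic group generated by `g` on `X = SL(2, ℤ) ⧸ Γ₀(N)`, and
`exists_pow_smul_eq`: a uniform exponent `k` with `g ^ k` acting trivially on `X`.
-/

set_option autoImplicit false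

open CongruenceSubgroup ModularCurve

open scoped MatrixGroups

namespace Fermat.Agent.S21

namespace Orbits

variable {G X : Type} [Group G] [MulAction G X]

/-- The orbit relation of the cyclic group generated by `g` only depends on the permutation
induced by `g`. -/
theorem orbitRel_zpowers_toPerm (g : G) :
    MulAction.orbitRel (Subgroup.zpowers (MulAction.toPerm g : Equiv.Perm X)) X =
      MulAction.orbitRel (Subgroup.zpowers g) X := by
  ext x y
  rw [MulAction.orbitRel_apply, MulAction.orbitRel_apply, MulAction.mem_orbit_iff,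
    MulAction.mem_orbit_iff]
  constructor
  · rintro ⟨⟨σ, hσ⟩, rfl⟩
    obtain ⟨n, rfl⟩ := Subgroup.mem_zpowers_iff.mp hσ
    refine ⟨⟨g ^ n, Subgroup.zpow_mem_zpowers g n⟩, ?_⟩
    change g ^ n • y = ((MulAction.toPerm g : Equiv.Perm X) ^ n) y
    rw [← MulAction.toPermHom_apply, ← map_zpow]
    rfl
  · rintro ⟨⟨h, hh⟩, rfl⟩
    obtain ⟨n, rfl⟩ := Subgroup.mem_zpowers_iff.mp hh
    refine ⟨⟨(MulAction.toPerm g : Equiv.Perm X) ^ n, Subgroup.zpow_mem_zpowers _ n⟩, ?_⟩
    change ((MulAction.toPerm g : Equiv.Perm X) ^ n) y = g ^ n • y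
    rw [← MulAction.toPermHom_apply, ← map_zpow]
    rfl

theorem nOrb_eq_toPerm (g : G) :
    nOrb X g =
      Nat.card (MulAction.orbitRel.Quotient (Subgroup.zpowers (MulAction.toPerm g : Equiv.Perm X)) X) := by
  unfold nOrb MulAction.orbitRel.Quotient
  rw [orbitRel_zpowers_toPerm]

theorem card_fixedPoints_toPerm (g : G) :
    Nat.card (Function.fixedPoints (MulAction.toPerm g : Equiv.Perm X)) =
      Nat.card (MulAction.fixedBy X g) := rfl

/-- orbits of an element acting as an involution -/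
theorem two_mul_nOrb [Fintype X] [DecidableEq X] (g : G) (h2 : ∀ x : X, g • g • x = x) :
    2 * nOrb X g = Nat.card X + Nat.card (MulAction.fixedBy X g) := by
  have h1 := finrank_ker_funLeft_add_one (MulAction.toPerm g : Equiv.Perm X) (fun x => h2 x)
  have h3 := finrank_ker_sum_funLeft_pow (MulAction.toPerm g : Equiv.Perm X) 2 (by norm_num)
    (fun x => by
      rw [pow_two]
      exact h2 x)
  rw [← nOrb_eq_toPerm] at h3
  rw [card_fixedPoints_toPerm] at h1
  have h4 : (∑ k ∈ Finset.range 2, LinearMap.funLeft ℂ ℂ (⇑((MulAction.toPerm g : Equiv.Perm X) ^ k)))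
      = LinearMap.funLeft ℂ ℂ (MulAction.toPerm g : Equiv.Perm X) + 1 := by
    rw [Finset.sum_range_succ, Finset.sum_range_one, pow_zero, pow_one, add_comm]
    rfl
  rw [h4] at h3
  omega

/-- orbits of an element acting with order dividing three -/
theorem three_mul_nOrb [Fintype X] [DecidableEq X] (g : G) (h3 : ∀ x : X, g • g • g • x = x) :
    3 * nOrb X g = Nat.card X + 2 * Nat.card (MulAction.fixedBy X g) := by
  have h1 := finrank_ker_funLeft_sub_one_of_cube (MulAction.toPerm g : Equiv.Perm X)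
    (fun x => h3 x)
  rw [PermDim.finrank_ker_funLeft_sub_one, ← nOrb_eq_toPerm, card_fixedPoints_toPerm] at h1
  exact h1

theorem neg_one_smul_quot (N : ℕ) (x : SL(2, ℤ) ⧸ Gamma0 N) : (-1 : SL(2, ℤ)) • x = x := by
  induction x using QuotientGroup.induction_on with
  | H h =>
    rw [MulAction.Quotient.smul_mk]
    refine QuotientGroup.eq.mpr ?_
    have h1 : (-1 : SL(2, ℤ))⁻¹ = -1 := by
      apply inv_eq_of_mul_eq_one_left
      rw [neg_mul_neg, one_mul]
    have : ((-1 : SL(2, ℤ)) • h)⁻¹ * h = -1 := by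
      rw [smul_eq_mul, mul_inv_rev, h1, mul_neg, mul_one, neg_mul, inv_mul_cancel]
    rw [this, Gamma0_mem]
    simp

theorem S_mul_S : (ModularGroup.S * ModularGroup.S : SL(2, ℤ)) = -1 := by
  apply Subtype.ext
  simp only [Matrix.SpecialLinearGroup.coe_mul, Matrix.SpecialLinearGroup.coe_neg,
    Matrix.SpecialLinearGroup.coe_one, ModularGroup.coe_S]
  decide

theorem ST_mul_ST_mul_ST : ((ModularGroup.S * ModularGroup.T) * (ModularGroup.S * ModularGroup.T) *
    (ModularGroup.S * ModularGroup.T) : SL(2, ℤ)) = -1 := by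
  apply Subtype.ext
  simp only [Matrix.SpecialLinearGroup.coe_mul, Matrix.SpecialLinearGroup.coe_neg,
    Matrix.SpecialLinearGroup.coe_one, ModularGroup.coe_S, ModularGroup.coe_T]
  decide

theorem S_smul_S_smul (N : ℕ) (x : SL(2, ℤ) ⧸ Gamma0 N) :
    ModularGroup.S • ModularGroup.S • x = x := by
  rw [← mul_smul, S_mul_S, neg_one_smul_quot]

theorem ST_cube (N : ℕ) (x : SL(2, ℤ) ⧸ Gamma0 N) :
    (ModularGroup.S * ModularGroup.T) • (ModularGroup.S * ModularGroup.T) •
      (ModularGroup.S * ModularGroup.T) • x = x := by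
  rw [← mul_smul, ← mul_smul, ST_mul_ST_mul_ST, neg_one_smul_quot]

end Orbits

open Orbits in
theorem orbit_count (N : ℕ) [NeZero N] :
    ((Nat.card (SL(2, ℤ) ⧸ Gamma0 N) : ℚ) + 2 - nOrb (SL(2, ℤ) ⧸ Gamma0 N) ModularGroup.S
      - nOrb (SL(2, ℤ) ⧸ Gamma0 N) ModularGroup.T
      - nOrb (SL(2, ℤ) ⧸ Gamma0 N) (ModularGroup.S * ModularGroup.T)) = 2 * genusFormula N := by
  classical
  have : Finite (SL(2, ℤ) ⧸ Gamma0 N) := Subgroup.finite_quotient_of_finiteIndex
  let _ : Fintype (SL(2, ℤ) ⧸ Gamma0 N) := Fintype.ofFinite _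
  have hS := two_mul_nOrb (X := SL(2, ℤ) ⧸ Gamma0 N) ModularGroup.S (S_smul_S_smul N)
  have hST := three_mul_nOrb (X := SL(2, ℤ) ⧸ Gamma0 N) (ModularGroup.S * ModularGroup.T)
    (ST_cube N)
  have hT : nOrb (SL(2, ℤ) ⧸ Gamma0 N) ModularGroup.T = cuspCount N :=
    Fermat.Agent.S20.card_orbits_T N
  rw [Fermat.Agent.S20.card_fixedBy_S] at hS
  rw [Fermat.Agent.S20.card_fixedBy_ST] at hST
  rw [Fermat.Agent.S20.card_quot] at hS hST ⊢
  have hS' : (2 : ℚ) * nOrb (SL(2, ℤ) ⧸ Gamma0 N) ModularGroup.S = dedekindPsi N + nuTwo N := by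
    exact_mod_cast hS
  have hST' : (3 : ℚ) * nOrb (SL(2, ℤ) ⧸ Gamma0 N) (ModularGroup.S * ModularGroup.T) =
      dedekindPsi N + 2 * nuThree N := by
    exact_mod_cast hST
  rw [hT]
  unfold genusFormula
  linarith

theorem exists_pow_smul_eq (N : ℕ) [NeZero N] :
    ∃ k, 0 < k ∧ ∀ (g : SL(2, ℤ)) (x : SL(2, ℤ) ⧸ Gamma0 N), g ^ k • x = x := by
  classical
  have : Finite (SL(2, ℤ) ⧸ Gamma0 N) := Subgroup.finite_quotient_of_finiteIndex
  refine ⟨Nat.card (Equiv.Perm (SL(2, ℤ) ⧸ Gamma0 N)), Nat.card_pos, fun g x => ?_⟩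
  have h : (MulAction.toPermHom SL(2, ℤ) (SL(2, ℤ) ⧸ Gamma0 N) g) ^
      Nat.card (Equiv.Perm (SL(2, ℤ) ⧸ Gamma0 N)) = 1 := pow_card_eq_one'
  rw [← map_pow] at h
  have := congrArg (fun σ : Equiv.Perm (SL(2, ℤ) ⧸ Gamma0 N) => σ x) h
  simpa using this

end Fermat.Agent.S21
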