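import Fermat.Agent.S21.Assembly

/-!
# Upper bound for the dimension of weight two cusp forms

The injectivity of the period pairing and the cohomological bound for parabolic
homomorphisms give, without any input from the dimension formula,

* `finite_cuspForm_two N : Module.Finite ℂ (CuspForm (Gamma0 N) 2)`,
* `finrank_cuspForm_two_le N : finrank ℂ (CuspForm (Gamma0 N) 2) ≤ genusFormula N`.

This file does not import `Fermat.Agent.S20`, so it can be used there.
-/

set_option autoImplicit false

open ModularCurve ModularCurve.Period CongruenceSubgroup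
open scoped MatrixGroups

namespace Fermat.Agent.S21

/-- The period pairing, corestricted to the parabolic homomorphisms. -/
noncomputable def periodHomPairPar (N : ℕ) [NeZero N] :
    (CuspForm (Gamma0 N) 2 × CuspForm (Gamma0 N) 2) →ₗ[ℂ] parabolicHoms ℂ (Gamma0 N) ℂ :=
  LinearMap.codRestrict _ (periodHomPair N)
    (fun x => range_periodHomPair_le (LinearMap.mem_range_self _ x))

theorem periodHomPairPar_injective (N : ℕ) [NeZero N] :
    Function.Injective (periodHomPairPar N) := by
  intro x y hxy
  apply periodHomPair_injective (N := N)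
  have := congrArg Subtype.val hxy
  exact this

/-- Pairs of weight two cusp forms of level `Γ₀(N)` form a finite-dimensional space. -/
theorem finite_cuspForm_two_prod (N : ℕ) [NeZero N] :
    Module.Finite ℂ (CuspForm (Gamma0 N) 2 × CuspForm (Gamma0 N) 2) := by
  have hfinP : Module.Finite ℂ (parabolicHoms ℂ (Gamma0 N) ℂ) := finite_parabolicHoms
  exact Module.Finite.of_injective (periodHomPairPar N) (periodHomPairPar_injective N)

/-- Weight two cusp forms of level `Γ₀(N)` form a finite-dimensional space. -/
theorem finite_cuspForm_two (N : ℕ) [NeZero N] :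
    Module.Finite ℂ (CuspForm (Gamma0 N) 2) := by
  have hfin2 := finite_cuspForm_two_prod N
  exact Module.Finite.of_injective
    (LinearMap.inl ℂ (CuspForm (Gamma0 N) 2) (CuspForm (Gamma0 N) 2)) LinearMap.inl_injective

/-- `2 * dim S_2(Γ₀(N)) ≤ dim` of the parabolic homomorphisms. -/
theorem two_mul_finrank_cuspForm_two_le (N : ℕ) [NeZero N] :
    2 * Module.finrank ℂ (CuspForm (Gamma0 N) 2) ≤
      Module.finrank ℂ (parabolicHoms ℂ (Gamma0 N) ℂ) := by
  have hfinP : Module.Finite ℂ (parabolicHoms ℂ (Gamma0 N) ℂ) := finite_parabolicHoms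
  have hfin1 := finite_cuspForm_two N
  have hprod : Module.finrank ℂ (CuspForm (Gamma0 N) 2 × CuspForm (Gamma0 N) 2) =
      Module.finrank ℂ (CuspForm (Gamma0 N) 2) + Module.finrank ℂ (CuspForm (Gamma0 N) 2) :=
    Module.finrank_prod
  have hle := LinearMap.finrank_le_finrank_of_injective (periodHomPairPar_injective N)
  omega

/-- The upper bound `dim S_2(Γ₀(N)) ≤ genusFormula N`. -/
theorem finrank_cuspForm_two_le (N : ℕ) [NeZero N] :
    (Module.finrank ℂ (CuspForm (Gamma0 N) 2) : ℚ) ≤ genusFormula N := by
  have h1 := finrank_parabolicHoms_le_two_genus (N := N)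
  have h2 : ((2 * Module.finrank ℂ (CuspForm (Gamma0 N) 2) : ℕ) : ℚ) ≤
      (Module.finrank ℂ (parabolicHoms ℂ (Gamma0 N) ℂ) : ℚ) := by
    exact_mod_cast two_mul_finrank_cuspForm_two_le N
  push_cast at h2
  linarith

end Fermat.Agent.S21
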