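import Mathlib
import Fermat.Prelude.Def_ModularCurve_PeriodHomPair
import Fermat.Agent.S21.PermDim

set_option autoImplicit false
set_option linter.unusedSectionVars false

open CongruenceSubgroup ModularCurve ModularCurve.Period
open scoped MatrixGroups

namespace Fermat.Agent.S21

namespace Cocycle

variable {N : ℕ}

/-- The coset space. -/
abbrev X (N : ℕ) : Type := SL(2, ℤ) ⧸ Gamma0 N

/-- the `Γ`-valued cocycle attached to the section `Quotient.out`. -/
noncomputable def gamG (g : SL(2, ℤ)) (x : X N) : SL(2, ℤ) :=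
  (g • x).out⁻¹ * g * x.out

theorem gamG_mem (g : SL(2, ℤ)) (x : X N) : gamG g x ∈ Gamma0 N := by
  have h1 : ((g * x.out : SL(2, ℤ)) : X N) = g • x := by
    conv_rhs => rw [← QuotientGroup.out_eq' x]
    rfl
  have h2 : (((g • x).out : SL(2, ℤ)) : X N) = ((g * x.out : SL(2, ℤ)) : X N) := by
    rw [h1, QuotientGroup.out_eq']
  have h3 := QuotientGroup.eq.mp h2
  rw [gamG, mul_assoc]
  exact h3

/-- the `Γ`-valued cocycle as an element of the subgroup. -/
noncomputable def gam (g : SL(2, ℤ)) (x : X N) : Gamma0 N := ⟨gamG g x, gamG_mem g x⟩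

theorem gam_mul (g h : SL(2, ℤ)) (x : X N) : gam (g * h) x = gam g (h • x) * gam h x := by
  apply Subtype.ext
  change gamG (g * h) x = gamG g (h • x) * gamG h x
  simp only [gamG, mul_smul]
  group

/-- If `g` fixes `x`, the cocycle value is a conjugate of `g`. -/
theorem gamG_of_fixed {g : SL(2, ℤ)} {x : X N} (h : g • x = x) :
    gamG g x = x.out⁻¹ * g * x.out := by
  rw [gamG, h]

theorem trace_gamG_of_fixed {g : SL(2, ℤ)} {x : X N} (h : g • x = x) :
    ((gamG g x : SL(2, ℤ)) : Matrix (Fin 2) (Fin 2) ℤ).trace =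
      (g : Matrix (Fin 2) (Fin 2) ℤ).trace := by
  rw [gamG_of_fixed h, Matrix.SpecialLinearGroup.coe_mul, Matrix.SpecialLinearGroup.coe_mul,
    Matrix.trace_mul_cycle, ← Matrix.SpecialLinearGroup.coe_mul, mul_inv_cancel,
    Matrix.SpecialLinearGroup.coe_one, one_mul]

/-- A function `c : G → X → ℂ` is a cocycle. -/
def IsCoc (c : SL(2, ℤ) → X N → ℂ) : Prop :=
  ∀ g h x, c (g * h) x = c g (h • x) + c h x

theorem IsCoc.one {c : SL(2, ℤ) → X N → ℂ} (hc : IsCoc c) (x : X N) : c 1 x = 0 := by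
  have := hc 1 1 x
  rw [one_mul, one_smul] at this
  linear_combination -this

theorem IsCoc.eq_zero {c : SL(2, ℤ) → X N → ℂ} (hc : IsCoc c)
    (hS : ∀ x, c ModularGroup.S x = 0) (hT : ∀ x, c ModularGroup.T x = 0) (g : SL(2, ℤ))
    (x : X N) : c g x = 0 := by
  have hg : g ∈ Subgroup.closure ({ModularGroup.S, ModularGroup.T} : Set SL(2, ℤ)) := by
    rw [SpecialLinearGroup.SL2Z_generators]
    exact Subgroup.mem_top g
  revert x
  induction hg using Subgroup.closure_induction with
  | mem g hg =>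
    rcases hg with rfl | rfl
    · exact hS
    · exact hT
  | one => exact hc.one
  | mul g h _ _ ihg ihh =>
    intro x
    rw [hc g h x, ihg, ihh, add_zero]
  | inv g _ ih =>
    intro x
    have h1 := hc g⁻¹ g (g⁻¹ • x)
    rw [inv_mul_cancel, hc.one, smul_inv_smul, ih, add_zero] at h1
    exact h1.symm

theorem IsCoc.pow {c : SL(2, ℤ) → X N → ℂ} (hc : IsCoc c) (g : SL(2, ℤ)) (n : ℕ) (x : X N) :
    c (g ^ n) x = ∑ k ∈ Finset.range n, c g (g ^ k • x) := by
  induction n with
  | zero => simp [hc.one]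
  | succ n ih =>
    rw [pow_succ', hc g (g ^ n) x, Finset.sum_range_succ, ih]
    ring

/-! ### Facts about the action on the coset space -/

theorem neg_one_mem : (-1 : SL(2, ℤ)) ∈ Gamma0 N := by
  rw [Gamma0_mem]
  simp

theorem neg_one_smul (x : X N) : (-1 : SL(2, ℤ)) • x = x := by
  induction x using QuotientGroup.induction_on with
  | H h =>
    change (((-1 : SL(2, ℤ)) * h : SL(2, ℤ)) : X N) = (h : X N)
    rw [QuotientGroup.eq]
    have : ((-1 : SL(2, ℤ)) * h)⁻¹ * h = -1 := by
      rw [neg_mul, one_mul, inv_mul_eq_iff_eq_mul, neg_mul_neg, mul_one]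
    rw [this]
    exact neg_one_mem

theorem S_mul_S : ModularGroup.S * ModularGroup.S = (-1 : SL(2, ℤ)) := by decide

/-- `U = S * T`. -/
def U : SL(2, ℤ) := ModularGroup.S * ModularGroup.T

theorem U_cube : U * (U * U) = (-1 : SL(2, ℤ)) := by decide

theorem S_smul_S_smul (x : X N) : ModularGroup.S • ModularGroup.S • x = x := by
  rw [← mul_smul, S_mul_S, neg_one_smul]

theorem U_smul_cube (x : X N) : U • U • U • x = x := by
  rw [← mul_smul, ← mul_smul, mul_assoc, U_cube, neg_one_smul]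

theorem T_pow_smul (x : X N) : (ModularGroup.T ^ N) • x = x := by
  induction x using QuotientGroup.induction_on with
  | H h =>
    change ((ModularGroup.T ^ N * h : SL(2, ℤ)) : X N) = (h : X N)
    rw [QuotientGroup.eq, Gamma0_mem]
    have key : ((ModularGroup.T ^ N * h)⁻¹ * h : SL(2, ℤ)) 1 0 = (h 1 0 * h 1 0) * (N : ℤ) := by
      rw [mul_inv_rev, ← zpow_natCast, ← zpow_neg]
      rw [Matrix.SpecialLinearGroup.coe_mul, Matrix.SpecialLinearGroup.coe_mul,
        Matrix.SpecialLinearGroup.coe_inv, ModularGroup.coe_T_zpow,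
        Matrix.mul_apply, Fin.sum_univ_two, Matrix.adjugate_fin_two]
      simp [Matrix.mul_apply, Fin.sum_univ_two]
      ring
    rw [key]
    push_cast
    simp

theorem trace_T_pow (n : ℕ) :
    ((ModularGroup.T ^ n : SL(2, ℤ)) : Matrix (Fin 2) (Fin 2) ℤ).trace = 2 := by
  rw [← zpow_natCast, ModularGroup.coe_T_zpow, Matrix.trace_fin_two_of]
  norm_num

theorem trace_neg_one : ((-1 : SL(2, ℤ)) : Matrix (Fin 2) (Fin 2) ℤ).trace = -2 := by
  rw [Matrix.SpecialLinearGroup.coe_neg, Matrix.SpecialLinearGroup.coe_one, Matrix.trace_neg,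
    Matrix.trace_one]
  simp

/-! ### The complex-valued cocycle of a homomorphism -/

/-- the `ℂ`-valued cocycle of a hom `φ`. -/
noncomputable def kap (φ : Additive (Gamma0 N) →+ ℂ) (g : SL(2, ℤ)) (x : X N) : ℂ :=
  φ (Additive.ofMul (gam g x))

theorem isCoc_kap (φ : Additive (Gamma0 N) →+ ℂ) : IsCoc (kap φ) := by
  intro g h x
  rw [kap, kap, kap, gam_mul, ofMul_mul, map_add]

theorem kap_of_fixed {φ : Additive (Gamma0 N) →+ ℂ} (hφ : IsParabolicHom (Gamma0 N) φ)
    {g : SL(2, ℤ)} {x : X N} (hfix : g • x = x)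
    (htr : (g : Matrix (Fin 2) (Fin 2) ℤ).trace ^ 2 = 4) : kap φ g x = 0 := by
  refine hφ (gam g x) ?_
  have : (((gam g x : Gamma0 N) : SL(2, ℤ)) : Matrix (Fin 2) (Fin 2) ℤ).trace =
      (g : Matrix (Fin 2) (Fin 2) ℤ).trace := trace_gamG_of_fixed hfix
  rw [this]
  exact htr

theorem kap_neg_one {φ : Additive (Gamma0 N) →+ ℂ} (hφ : IsParabolicHom (Gamma0 N) φ)
    (x : X N) : kap φ (-1) x = 0 :=
  kap_of_fixed hφ (neg_one_smul x) (by rw [trace_neg_one]; norm_num)

theorem kap_T_pow {φ : Additive (Gamma0 N) →+ ℂ} (hφ : IsParabolicHom (Gamma0 N) φ)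
    (x : X N) : kap φ (ModularGroup.T ^ N) x = 0 :=
  kap_of_fixed hφ (T_pow_smul x) (by rw [trace_T_pow]; norm_num)

/-- the full cocycle attached to a hom and a function on `X`. -/
noncomputable def coc (φ : Additive (Gamma0 N) →+ ℂ) (m : X N → ℂ) (g : SL(2, ℤ)) (x : X N) : ℂ :=
  kap φ g x + m (g • x) - m x

theorem isCoc_coc (φ : Additive (Gamma0 N) →+ ℂ) (m : X N → ℂ) : IsCoc (coc φ m) := by
  intro g h x
  rw [coc, coc, coc, isCoc_kap φ g h x, mul_smul]
  ring

theorem coc_neg_one {φ : Additive (Gamma0 N) →+ ℂ} (hφ : IsParabolicHom (Gamma0 N) φ)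
    (m : X N → ℂ) (x : X N) : coc φ m (-1) x = 0 := by
  rw [coc, kap_neg_one hφ, neg_one_smul]
  ring

theorem coc_T_pow {φ : Additive (Gamma0 N) →+ ℂ} (hφ : IsParabolicHom (Gamma0 N) φ)
    (m : X N → ℂ) (x : X N) : coc φ m (ModularGroup.T ^ N) x = 0 := by
  rw [coc, kap_T_pow hφ, T_pow_smul]
  ring

/-- If the cocycle vanishes on the generators, `φ = 0` and `m` is constant. -/
theorem eq_zero_of_coc_eq_zero (φ : Additive (Gamma0 N) →+ ℂ) (m : X N → ℂ)
    (hS : ∀ x, coc φ m ModularGroup.S x = 0) (hT : ∀ x, coc φ m ModularGroup.T x = 0) :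
    φ = 0 ∧ ∀ x, m x = m ((1 : SL(2, ℤ)) : X N) := by
  have h0 : ∀ g x, coc φ m g x = 0 := (isCoc_coc φ m).eq_zero hS hT
  have hφ : φ = 0 := by
    refine AddMonoidHom.ext fun γ' => ?_
    obtain ⟨γ, rfl⟩ : ∃ γ : Gamma0 N, Additive.ofMul γ = γ' := ⟨Additive.toMul γ', rfl⟩
    set x0 : X N := ((1 : SL(2, ℤ)) : X N) with hx0
    have hfix : (γ : SL(2, ℤ)) • x0 = x0 := by
      change (((γ : SL(2, ℤ)) * 1 : SL(2, ℤ)) : X N) = ((1 : SL(2, ℤ)) : X N)
      rw [QuotientGroup.eq]
      simp only [mul_one]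
      exact (Gamma0 N).inv_mem γ.2
    have hr : x0.out ∈ Gamma0 N := by
      have h1 : ((x0.out : SL(2, ℤ)) : X N) = ((1 : SL(2, ℤ)) : X N) := QuotientGroup.out_eq' x0
      have h2 := QuotientGroup.eq.mp h1.symm
      rwa [inv_one, one_mul] at h2
    have h1 := h0 (γ : SL(2, ℤ)) x0
    rw [coc, hfix, add_sub_cancel_right, kap] at h1
    have h2 : gam (γ : SL(2, ℤ)) x0 = (⟨x0.out, hr⟩ : Gamma0 N)⁻¹ * γ * ⟨x0.out, hr⟩ := by
      apply Subtype.ext
      change gamG (γ : SL(2, ℤ)) x0 = _
      rw [gamG_of_fixed hfix]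
      rfl
    rw [h2, ofMul_mul, ofMul_mul, map_add, map_add, ofMul_inv, map_neg] at h1
    rw [AddMonoidHom.zero_apply]
    linear_combination h1
  refine ⟨hφ, fun x => ?_⟩
  induction x using QuotientGroup.induction_on with
  | H g =>
    have h1 := h0 g ((1 : SL(2, ℤ)) : X N)
    rw [coc, hφ] at h1
    have h2 : g • (((1 : SL(2, ℤ)) : X N)) = (g : X N) := by
      change ((g * 1 : SL(2, ℤ)) : X N) = (g : X N)
      rw [mul_one]
    rw [h2] at h1
    simp only [kap, AddMonoidHom.zero_apply, zero_add] at h1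
    linear_combination h1

/-! ### Linear algebra on functions on the coset space -/

section LA

variable [NeZero N]

noncomputable instance instFintypeX : Fintype (X N) := Fintype.ofFinite _

/-- pullback by the action of `g`. -/
noncomputable def pull (g : SL(2, ℤ)) : (X N → ℂ) →ₗ[ℂ] (X N → ℂ) :=
  LinearMap.funLeft ℂ ℂ (fun x => g • x)

@[simp] theorem pull_apply (g : SL(2, ℤ)) (m : X N → ℂ) (x : X N) : pull g m x = m (g • x) :=
  rfl

variable (N) in
/-- anti-invariants of `S`. -/
noncomputable def spA : Submodule ℂ (X N → ℂ) := LinearMap.ker (pull ModularGroup.S + 1)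

variable (N) in
/-- kernel of the `T`-norm. -/
noncomputable def spB : Submodule ℂ (X N → ℂ) :=
  LinearMap.ker (∑ k ∈ Finset.range N, pull (ModularGroup.T ^ k))

variable (N) in
/-- invariants of `U`. -/
noncomputable def spW : Submodule ℂ (X N → ℂ) := LinearMap.ker (pull U - 1)

theorem mem_spA {a : X N → ℂ} : a ∈ spA N ↔ ∀ x, a (ModularGroup.S • x) + a x = 0 := by
  rw [spA, LinearMap.mem_ker]
  constructor
  · intro h x
    have := congrFun h x
    simpa using this
  · intro h
    funext x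
    simpa using h x

theorem mem_spB {b : X N → ℂ} :
    b ∈ spB N ↔ ∀ x, ∑ k ∈ Finset.range N, b (ModularGroup.T ^ k • x) = 0 := by
  rw [spB, LinearMap.mem_ker]
  constructor
  · intro h x
    have := congrFun h x
    simpa [LinearMap.sum_apply, Finset.sum_apply] using this
  · intro h
    funext x
    simpa [LinearMap.sum_apply, Finset.sum_apply] using h x

theorem mem_spW {w : X N → ℂ} : w ∈ spW N ↔ ∀ x, w (U • x) = w x := by
  rw [spW, LinearMap.mem_ker]
  constructor
  · intro h x
    have := congrFun h x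
    simpa [sub_eq_zero] using this
  · intro h
    funext x
    simpa [sub_eq_zero] using h x

/-- adjointness of pullbacks for the standard pairing. -/
theorem sum_mul_smul (g : SL(2, ℤ)) (n m : X N → ℂ) :
    ∑ x, n x * m (g • x) = ∑ x, n (g⁻¹ • x) * m x := by
  have := Equiv.sum_comp (MulAction.toPerm g : Equiv.Perm (X N)) (fun z => n (g⁻¹ • z) * m z)
  simp only [MulAction.toPerm_apply, inv_smul_smul] at this
  exact this

/-- the map `Λ`. -/
noncomputable def lam (N : ℕ) [NeZero N] : (↥(spA N) × ↥(spB N)) →ₗ[ℂ] (X N → ℂ) :=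
  (1 + pull U + pull U ∘ₗ pull U) ∘ₗ
    (pull ModularGroup.T ∘ₗ (spA N).subtype ∘ₗ LinearMap.fst ℂ _ _ +
      (spB N).subtype ∘ₗ LinearMap.snd ℂ _ _)

theorem lam_apply (p : ↥(spA N) × ↥(spB N)) (x : X N) :
    lam N p x = (p.1.1 (ModularGroup.T • x) + p.2.1 x) +
      (p.1.1 (ModularGroup.T • U • x) + p.2.1 (U • x)) +
      (p.1.1 (ModularGroup.T • U • U • x) + p.2.1 (U • U • x)) := by
  simp [lam]

/-- orthogonality: a `U`-invariant function orthogonal to the range of `Λ` is constant. -/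
theorem const_of_orth (n : X N → ℂ) (hn : n ∈ spW N)
    (h : ∀ p : ↥(spA N) × ↥(spB N), ∑ x, n x * lam N p x = 0) :
    ∀ x, n x = n ((1 : SL(2, ℤ)) : X N) := by
  classical
  rw [mem_spW] at hn
  -- step A
  have hA : ∀ p : ↥(spA N) × ↥(spB N),
      ∑ x, n x * (p.1.1 (ModularGroup.T • x) + p.2.1 x) = 0 := by
    intro p
    have h1 := h p
    simp only [lam_apply, mul_add, Finset.sum_add_distrib] at h1
    have e1 : ∑ x, n x * p.1.1 (ModularGroup.T • U • x) =
        ∑ x, n x * p.1.1 (ModularGroup.T • x) := by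
      have := Equiv.sum_comp (MulAction.toPerm U : Equiv.Perm (X N))
        (fun z => n z * p.1.1 (ModularGroup.T • z))
      simp only [MulAction.toPerm_apply, hn] at this
      exact this
    have e2 : ∑ x, n x * p.2.1 (U • x) = ∑ x, n x * p.2.1 x := by
      have := Equiv.sum_comp (MulAction.toPerm U : Equiv.Perm (X N)) (fun z => n z * p.2.1 z)
      simp only [MulAction.toPerm_apply, hn] at this
      exact this
    have e3 : ∑ x, n x * p.1.1 (ModularGroup.T • U • U • x) =
        ∑ x, n x * p.1.1 (ModularGroup.T • x) := by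
      have := Equiv.sum_comp (MulAction.toPerm (U * U) : Equiv.Perm (X N))
        (fun z => n z * p.1.1 (ModularGroup.T • z))
      simp only [MulAction.toPerm_apply, mul_smul, hn] at this
      exact this
    have e4 : ∑ x, n x * p.2.1 (U • U • x) = ∑ x, n x * p.2.1 x := by
      have := Equiv.sum_comp (MulAction.toPerm (U * U) : Equiv.Perm (X N))
        (fun z => n z * p.2.1 z)
      simp only [MulAction.toPerm_apply, mul_smul, hn] at this
      exact this
    rw [e1, e2, e3, e4] at h1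
    simp only [mul_add, Finset.sum_add_distrib]
    linear_combination (1 / 3 : ℂ) * h1
  -- step B: invariance under T
  have hT : ∀ y, n (ModularGroup.T⁻¹ • y) = n y := by
    intro y
    let m : X N → ℂ := fun x => if x = y then 1 else 0
    have hb : (fun x => m (ModularGroup.T • x) - m x) ∈ spB N := by
      rw [mem_spB]
      intro x
      have := Finset.sum_range_sub (fun k => m (ModularGroup.T ^ k • x)) N
      simp only [pow_zero, one_smul, T_pow_smul, sub_self] at this
      rw [← this]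
      refine Finset.sum_congr rfl fun k _ => ?_
      rw [pow_succ', mul_smul]
    have h1 := hA (0, ⟨_, hb⟩)
    simp only [ZeroMemClass.coe_zero, Pi.zero_apply, zero_add, mul_sub,
      Finset.sum_sub_distrib] at h1
    rw [sum_mul_smul] at h1
    simp only [m, mul_ite, mul_one, mul_zero, Finset.sum_ite_eq', Finset.mem_univ, if_true] at h1
    exact sub_eq_zero.mp h1
  -- step C: invariance under S
  have hS : ∀ y, n (ModularGroup.S⁻¹ • y) = n y := by
    intro y
    let m : X N → ℂ := fun x => if x = y then 1 else 0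
    have ha : (fun x => m x - m (ModularGroup.S • x)) ∈ spA N := by
      rw [mem_spA]
      intro x
      rw [S_smul_S_smul]
      ring
    have h1 := hA (⟨_, ha⟩, 0)
    simp only [ZeroMemClass.coe_zero, Pi.zero_apply, add_zero, mul_sub,
      Finset.sum_sub_distrib] at h1
    rw [sum_mul_smul] at h1
    have h2 : ∑ x, n x * m (ModularGroup.S • ModularGroup.T • x) =
        ∑ x, n ((ModularGroup.S * ModularGroup.T)⁻¹ • x) * m x := by
      rw [← sum_mul_smul]
      simp only [mul_smul]
    rw [h2] at h1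
    simp only [m, mul_ite, mul_one, mul_zero, Finset.sum_ite_eq', Finset.mem_univ, if_true] at h1
    rw [mul_inv_rev, mul_smul, hT, hT] at h1
    exact (sub_eq_zero.mp h1).symm
  -- step D
  have hall : ∀ g : SL(2, ℤ), ∀ x, n (g • x) = n x := by
    intro g
    have hg : g ∈ Subgroup.closure ({ModularGroup.S, ModularGroup.T} : Set SL(2, ℤ)) := by
      rw [SpecialLinearGroup.SL2Z_generators]
      exact Subgroup.mem_top g
    induction hg using Subgroup.closure_induction with
    | mem g hg =>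
      rcases hg with rfl | rfl
      · intro x
        have := hS (ModularGroup.S • x)
        rw [inv_smul_smul] at this
        exact this.symm
      · intro x
        have := hT (ModularGroup.T • x)
        rw [inv_smul_smul] at this
        exact this.symm
    | one => intro x; rw [one_smul]
    | mul g h _ _ ihg ihh => intro x; rw [mul_smul, ihg, ihh]
    | inv g _ ih =>
      intro x
      have := ih (g⁻¹ • x)
      rw [smul_inv_smul] at this
      exact this.symm
  intro x
  induction x using QuotientGroup.induction_on with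
  | H g =>
    have h2 : g • (((1 : SL(2, ℤ)) : X N)) = (g : X N) := by
      change ((g * 1 : SL(2, ℤ)) : X N) = (g : X N)
      rw [mul_one]
    rw [← h2, hall]

end LA

/-! ### Dimensions -/

section Dim

variable [NeZero N]

theorem pull_eq_funLeft (g : SL(2, ℤ)) :
    (pull g : (X N → ℂ) →ₗ[ℂ] (X N → ℂ)) =
      LinearMap.funLeft ℂ ℂ (⇑(MulAction.toPerm g : Equiv.Perm (X N))) := rfl

theorem finrank_spA :
    2 * Module.finrank ℂ (spA N) + Nat.card (MulAction.fixedBy (X N) ModularGroup.S) =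
      Nat.card (X N) := by
  classical
  have h := finrank_ker_funLeft_add_one (MulAction.toPerm ModularGroup.S : Equiv.Perm (X N))
    (fun x => S_smul_S_smul x)
  exact h

theorem finrank_spW :
    3 * Module.finrank ℂ (spW N) =
      Nat.card (X N) + 2 * Nat.card (MulAction.fixedBy (X N) (ModularGroup.S * ModularGroup.T)) := by
  classical
  have h := finrank_ker_funLeft_sub_one_of_cube (MulAction.toPerm U : Equiv.Perm (X N))
    (fun x => U_smul_cube x)
  exact h

theorem card_orbits_toPerm (g : SL(2, ℤ)) :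
    Nat.card (MulAction.orbitRel.Quotient
      (Subgroup.zpowers (MulAction.toPerm g : Equiv.Perm (X N))) (X N)) =
    Nat.card (MulAction.orbitRel.Quotient (Subgroup.zpowers g) (X N)) := by
  refine Nat.card_congr (Quotient.congr (Equiv.refl _) ?_)
  intro a b
  simp only [Equiv.refl_apply]
  change a ∈ MulAction.orbit _ b ↔ a ∈ MulAction.orbit _ b
  rw [MulAction.mem_orbit_iff, MulAction.mem_orbit_iff]
  constructor
  · rintro ⟨⟨σ, hσ⟩, rfl⟩
    obtain ⟨k, rfl⟩ := Subgroup.mem_zpowers_iff.mp hσ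
    refine ⟨⟨g ^ k, Subgroup.zpow_mem_zpowers g k⟩, ?_⟩
    change g ^ k • b = ((MulAction.toPerm g : Equiv.Perm (X N)) ^ k) b
    rw [← MulAction.toPermHom_apply, ← map_zpow]
    rfl
  · rintro ⟨⟨h, hh⟩, rfl⟩
    obtain ⟨k, rfl⟩ := Subgroup.mem_zpowers_iff.mp hh
    refine ⟨⟨(MulAction.toPerm g : Equiv.Perm (X N)) ^ k, Subgroup.zpow_mem_zpowers _ k⟩, ?_⟩
    change ((MulAction.toPerm g : Equiv.Perm (X N)) ^ k) b = g ^ k • b
    rw [← MulAction.toPermHom_apply, ← map_zpow]
    rfl

theorem finrank_spB :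
    Module.finrank ℂ (spB N) +
      Nat.card (MulAction.orbitRel.Quotient (Subgroup.zpowers ModularGroup.T) (X N)) =
      Nat.card (X N) := by
  classical
  have h := finrank_ker_sum_funLeft_pow (MulAction.toPerm ModularGroup.T : Equiv.Perm (X N)) N
    (Nat.pos_of_ne_zero (NeZero.ne N)) (fun x => by
      rw [← MulAction.toPermHom_apply, ← map_pow]
      exact T_pow_smul x)
  rw [card_orbits_toPerm] at h
  have e : (∑ k ∈ Finset.range N, LinearMap.funLeft ℂ ℂ
      (⇑((MulAction.toPerm ModularGroup.T : Equiv.Perm (X N)) ^ k))) =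
      ∑ k ∈ Finset.range N, (pull (ModularGroup.T ^ k) : (X N → ℂ) →ₗ[ℂ] (X N → ℂ)) := by
    refine Finset.sum_congr rfl fun k _ => ?_
    rw [pull_eq_funLeft, ← MulAction.toPermHom_apply, ← MulAction.toPermHom_apply, map_pow]
  rw [e] at h
  exact h

end Dim

/-! ### The comparison map and the bound -/

section Bound

variable [NeZero N]

/-- The space of parabolic homs. -/
abbrev PH (N : ℕ) : Submodule ℂ (Additive (Gamma0 N) →+ ℂ) := parabolicHoms ℂ (Gamma0 N) ℂ

/-- the cocycle evaluated at `g`, as a linear map. -/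
noncomputable def cocL (g : SL(2, ℤ)) : (↥(PH N) × (X N → ℂ)) →ₗ[ℂ] (X N → ℂ) where
  toFun p := fun x => coc p.1.1 p.2 g x
  map_add' p q := by
    funext x
    simp only [coc, kap, Prod.fst_add, Prod.snd_add, Submodule.coe_add, AddMonoidHom.add_apply,
      Pi.add_apply]
    ring
  map_smul' c p := by
    funext x
    simp only [coc, kap, Prod.smul_fst, Prod.smul_snd, Submodule.coe_smul, AddMonoidHom.smul_apply,
      Pi.smul_apply, smul_eq_mul, RingHom.id_apply]
    ring

theorem cocL_apply (g : SL(2, ℤ)) (p : ↥(PH N) × (X N → ℂ)) (x : X N) :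
    cocL g p x = coc p.1.1 p.2 g x := rfl

theorem cocL_S_mem (p : ↥(PH N) × (X N → ℂ)) : cocL ModularGroup.S p ∈ spA N := by
  rw [mem_spA]
  intro x
  have hφ : IsParabolicHom (Gamma0 N) p.1.1 := mem_parabolicHoms_iff.mp p.1.2
  have h1 := isCoc_coc p.1.1 p.2 ModularGroup.S ModularGroup.S x
  rw [S_mul_S, coc_neg_one hφ] at h1
  rw [cocL_apply, cocL_apply]
  exact h1.symm

theorem cocL_T_mem (p : ↥(PH N) × (X N → ℂ)) : cocL ModularGroup.T p ∈ spB N := by
  rw [mem_spB]
  intro x
  have hφ : IsParabolicHom (Gamma0 N) p.1.1 := mem_parabolicHoms_iff.mp p.1.2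
  have h1 := (isCoc_coc p.1.1 p.2).pow ModularGroup.T N x
  rw [coc_T_pow hφ] at h1
  simp only [cocL_apply]
  exact h1.symm

/-- the comparison map `Θ`. -/
noncomputable def theta (N : ℕ) [NeZero N] :
    (↥(PH N) × (X N → ℂ)) →ₗ[ℂ] (↥(spA N) × ↥(spB N)) :=
  LinearMap.prod ((cocL ModularGroup.S).codRestrict (spA N) cocL_S_mem)
    ((cocL ModularGroup.T).codRestrict (spB N) cocL_T_mem)

theorem lam_theta (p : ↥(PH N) × (X N → ℂ)) : lam N (theta N p) = 0 := by
  funext x
  have hφ : IsParabolicHom (Gamma0 N) p.1.1 := mem_parabolicHoms_iff.mp p.1.2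
  have hc := isCoc_coc p.1.1 p.2
  have hU : ∀ y, coc p.1.1 p.2 ModularGroup.S (ModularGroup.T • y) +
      coc p.1.1 p.2 ModularGroup.T y = coc p.1.1 p.2 U y := fun y =>
    (hc ModularGroup.S ModularGroup.T y).symm
  have h1 := hc U (U * U) x
  rw [U_cube, coc_neg_one hφ, hc U U x, mul_smul] at h1
  rw [lam_apply]
  change (coc p.1.1 p.2 ModularGroup.S (ModularGroup.T • x) + coc p.1.1 p.2 ModularGroup.T x) +
    (coc p.1.1 p.2 ModularGroup.S (ModularGroup.T • U • x) +
      coc p.1.1 p.2 ModularGroup.T (U • x)) +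
    (coc p.1.1 p.2 ModularGroup.S (ModularGroup.T • U • U • x) +
      coc p.1.1 p.2 ModularGroup.T (U • U • x)) = 0
  rw [hU, hU, hU]
  linear_combination -h1

theorem ker_theta (p : ↥(PH N) × (X N → ℂ)) (hp : theta N p = 0) :
    p.1 = 0 ∧ ∀ x, p.2 x = p.2 ((1 : SL(2, ℤ)) : X N) := by
  have h1 : cocL ModularGroup.S p = 0 := by
    have := congrArg (fun q : ↥(spA N) × ↥(spB N) => (q.1 : X N → ℂ)) hp
    exact this
  have h2 : cocL ModularGroup.T p = 0 := by
    have := congrArg (fun q : ↥(spA N) × ↥(spB N) => (q.2 : X N → ℂ)) hp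
    exact this
  obtain ⟨h3, h4⟩ := eq_zero_of_coc_eq_zero p.1.1 p.2 (fun x => congrFun h1 x)
    (fun x => congrFun h2 x)
  exact ⟨Subtype.ext h3, h4⟩

/-- The parabolic homs form a finite-dimensional space. -/
theorem finite_PH : Module.Finite ℂ ↥(PH N) := by
  let f : ↥(PH N) →ₗ[ℂ] (↥(spA N) × ↥(spB N)) := theta N ∘ₗ LinearMap.inl ℂ _ _
  refine Module.Finite.of_injective f ?_
  rw [← LinearMap.ker_eq_bot, eq_bot_iff]
  intro φ hφ
  rw [LinearMap.mem_ker] at hφ
  have := (ker_theta (φ, 0) hφ).1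
  exact this

theorem finrank_ker_theta_le : Module.finrank ℂ (LinearMap.ker (theta N)) ≤ 1 := by
  have := finite_PH (N := N)
  let ι : ℂ →ₗ[ℂ] (↥(PH N) × (X N → ℂ)) :=
    LinearMap.inr ℂ _ _ ∘ₗ LinearMap.pi (fun _ => LinearMap.id)
  have hle : LinearMap.ker (theta N) ≤ LinearMap.range ι := by
    intro p hp
    obtain ⟨h1, h2⟩ := ker_theta p hp
    refine ⟨p.2 ((1 : SL(2, ℤ)) : X N), ?_⟩
    refine Prod.ext h1.symm ?_
    funext x
    exact (h2 x).symm
  have h3 := Submodule.finrank_mono hle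
  have h4 := LinearMap.finrank_range_le ι
  rw [Module.finrank_self] at h4
  exact h3.trans h4

/-- the evaluation pairing of `U`-invariants against the range of `Λ`. -/
noncomputable def pairing : (X N → ℂ) →ₗ[ℂ] (X N → ℂ) →ₗ[ℂ] ℂ :=
  LinearMap.mk₂ ℂ (fun n r => ∑ x, n x * r x)
    (fun a b c => by simp [add_mul, Finset.sum_add_distrib])
    (fun c a b => by simp [Finset.mul_sum, mul_assoc])
    (fun a b c => by simp [mul_add, Finset.sum_add_distrib])
    (fun c a b => by simp [Finset.mul_sum, mul_left_comm])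

theorem pairing_apply (n r : X N → ℂ) : pairing n r = ∑ x, n x * r x := rfl

theorem one_mem_spW : (fun _ => 1 : X N → ℂ) ∈ spW N := by
  rw [mem_spW]
  intro x
  rfl

theorem finrank_spW_le :
    Module.finrank ℂ (spW N) ≤ Module.finrank ℂ (LinearMap.range (lam N)) + 1 := by
  let ev : ↥(spW N) →ₗ[ℂ] (↥(LinearMap.range (lam N)) →ₗ[ℂ] ℂ) :=
    (pairing (N := N)).domRestrict₁₂ (spW N) (LinearMap.range (lam N))
  have hker : Module.finrank ℂ (LinearMap.ker ev) ≤ 1 := by
    let ι : ℂ →ₗ[ℂ] ↥(spW N) := LinearMap.toSpanSingleton ℂ ↥(spW N) ⟨_, one_mem_spW⟩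
    have hle : LinearMap.ker ev ≤ LinearMap.range ι := by
      intro n hn
      have hn' : ev n = 0 := hn
      have hconst := const_of_orth n.1 n.2 (fun p => by
        have := congrArg (fun F : ↥(LinearMap.range (lam N)) →ₗ[ℂ] ℂ =>
          F ⟨lam N p, LinearMap.mem_range_self _ p⟩) hn'
        exact this)
      refine ⟨n.1 ((1 : SL(2, ℤ)) : X N), ?_⟩
      apply Subtype.ext
      funext x
      rw [hconst x]
      change n.1 ((1 : SL(2, ℤ)) : X N) • (1 : ℂ) = _
      rw [smul_eq_mul, mul_one]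
    have h3 := Submodule.finrank_mono hle
    have h4 := LinearMap.finrank_range_le ι
    rw [Module.finrank_self] at h4
    exact h3.trans h4
  have h1 := LinearMap.finrank_range_add_finrank_ker ev
  have h2 : Module.finrank ℂ (LinearMap.range ev) ≤
      Module.finrank ℂ (↥(LinearMap.range (lam N)) →ₗ[ℂ] ℂ) := Submodule.finrank_le _
  have h3 : Module.finrank ℂ (↥(LinearMap.range (lam N)) →ₗ[ℂ] ℂ) =
      Module.finrank ℂ (LinearMap.range (lam N)) := Subspace.dual_finrank_eq
  omega

/-- The main inequality, in terms of the auxiliary spaces. -/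
theorem finrank_PH_add_le :
    Module.finrank ℂ ↥(PH N) + Nat.card (X N) + Module.finrank ℂ (spW N) ≤
      Module.finrank ℂ (spA N) + Module.finrank ℂ (spB N) + 2 := by
  have := finite_PH (N := N)
  have h1 := LinearMap.finrank_range_add_finrank_ker (theta N)
  have h2 := LinearMap.finrank_range_add_finrank_ker (lam N)
  have h3 : Module.finrank ℂ (LinearMap.range (theta N)) ≤
      Module.finrank ℂ (LinearMap.ker (lam N)) := by
    apply Submodule.finrank_mono
    rintro _ ⟨p, rfl⟩
    exact lam_theta p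
  have h4 := finrank_ker_theta_le (N := N)
  have h5 := finrank_spW_le (N := N)
  have h6 : Module.finrank ℂ (↥(PH N) × (X N → ℂ)) =
      Module.finrank ℂ ↥(PH N) + Nat.card (X N) := by
    rw [Module.finrank_prod, Module.finrank_pi, Nat.card_eq_fintype_card]
  have h7 : Module.finrank ℂ (↥(spA N) × ↥(spB N)) =
      Module.finrank ℂ (spA N) + Module.finrank ℂ (spB N) := Module.finrank_prod
  omega

end Bound

end Cocycle

open Cocycle in
theorem finite_parabolicHoms {N : ℕ} [NeZero N] :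
    Module.Finite ℂ (parabolicHoms ℂ (Gamma0 N) ℂ) :=
  finite_PH

open Cocycle in
theorem finrank_parabolicHoms_le {N : ℕ} [NeZero N] :
    6 * (Module.finrank ℂ (parabolicHoms ℂ (Gamma0 N) ℂ) : ℤ) ≤
      (Nat.card (SL(2, ℤ) ⧸ Gamma0 N) : ℤ)
        - 3 * Nat.card (MulAction.fixedBy (SL(2, ℤ) ⧸ Gamma0 N) ModularGroup.S)
        - 4 * Nat.card (MulAction.fixedBy (SL(2, ℤ) ⧸ Gamma0 N) (ModularGroup.S * ModularGroup.T))
        - 6 * Nat.card (MulAction.orbitRel.Quotient (Subgroup.zpowers ModularGroup.T)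
            (SL(2, ℤ) ⧸ Gamma0 N)) + 12 := by
  have h1 : Module.finrank ℂ (parabolicHoms ℂ (Gamma0 N) ℂ) + Nat.card (SL(2, ℤ) ⧸ Gamma0 N) +
      Module.finrank ℂ (spW N) ≤ Module.finrank ℂ (spA N) + Module.finrank ℂ (spB N) + 2 :=
    finrank_PH_add_le (N := N)
  have h2 : 2 * Module.finrank ℂ (spA N) +
      Nat.card (MulAction.fixedBy (SL(2, ℤ) ⧸ Gamma0 N) ModularGroup.S) =
      Nat.card (SL(2, ℤ) ⧸ Gamma0 N) := finrank_spA (N := N)
  have h3 : 3 * Module.finrank ℂ (spW N) = Nat.card (SL(2, ℤ) ⧸ Gamma0 N) +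
      2 * Nat.card (MulAction.fixedBy (SL(2, ℤ) ⧸ Gamma0 N) (ModularGroup.S * ModularGroup.T)) :=
    finrank_spW (N := N)
  have h4 : Module.finrank ℂ (spB N) +
      Nat.card (MulAction.orbitRel.Quotient (Subgroup.zpowers ModularGroup.T)
        (SL(2, ℤ) ⧸ Gamma0 N)) = Nat.card (SL(2, ℤ) ⧸ Gamma0 N) := finrank_spB (N := N)
  omega

end Fermat.Agent.S21
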