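import Fermat.Agent.S21.Inj
import Fermat.Agent.S21.Cocycle
import Fermat.Agent.S20.Comb

/-!
# S21: final assembly modulo the dimension formula

`result_of_finrank` deduces the Eichler–Shimura statement for `periodHomPair N` from
the dimension formula `finrank S_2(Γ₀(N)) = genusFormula N` (statement S20), using

* injectivity of `periodHomPair N` (`Inj.lean`),
* `range (periodHomPair N) ≤ parabolicHoms` (`Prim.lean`),
* the cohomological bound `finrank parabolicHoms ≤ 2 * genusFormula N`
  (`Cocycle.lean` and the coset combinatorics of `S20/Comb.lean`).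
-/

set_option autoImplicit false

open ModularCurve ModularCurve.Period CongruenceSubgroup
open scoped MatrixGroups

namespace Fermat.Agent.S21

variable {N : ℕ} [NeZero N]

/-- The image of the period pairing consists of parabolic homomorphisms. -/
theorem range_periodHomPair_le :
    LinearMap.range (periodHomPair N) ≤ parabolicHoms ℂ (Gamma0 N) ℂ := by
  obtain ⟨pml, hpml, hdef⟩ := periodHomPair_def N existsPeriodMapLinear
  rintro ψ ⟨⟨f, g⟩, rfl⟩
  rw [hdef]
  simp only [LinearMap.coprod_apply, LinearMap.comp_apply, LinearMap.add_apply,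
    LinearMap.sub_apply, LinearMap.id_apply, hpml]
  exact Submodule.add_mem _
    (Submodule.add_mem _ (periodMap_mem_parabolicHoms f)
      (charInvolution_mem_parabolicHoms N ℂ ℂ (periodMap_mem_parabolicHoms f)))
    (Submodule.sub_mem _ (periodMap_mem_parabolicHoms g)
      (charInvolution_mem_parabolicHoms N ℂ ℂ (periodMap_mem_parabolicHoms g)))

/-- The cohomological bound in terms of the genus formula. -/
theorem finrank_parabolicHoms_le_two_genus :
    (Module.finrank ℂ (parabolicHoms ℂ (Gamma0 N) ℂ) : ℚ) ≤ 2 * genusFormula N := by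
  have h := finrank_parabolicHoms_le (N := N)
  rw [Fermat.Agent.S20.card_quot, Fermat.Agent.S20.card_fixedBy_S,
    Fermat.Agent.S20.card_fixedBy_ST, Fermat.Agent.S20.card_orbits_T] at h
  have h' : (6 : ℚ) * (Module.finrank ℂ (parabolicHoms ℂ (Gamma0 N) ℂ) : ℚ) ≤
      (dedekindPsi N : ℚ) - 3 * (nuTwo N : ℚ) - 4 * (nuThree N : ℚ) - 6 * (cuspCount N : ℚ)
        + 12 := by
    exact_mod_cast h
  unfold genusFormula
  linarith

/-- The Eichler–Shimura statement for `periodHomPair N`, given the dimension formula
for weight two cusp forms. -/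
theorem result_of_finrank
    (hS20 : (Module.finrank ℂ (CuspForm (Gamma0 N) 2) : ℚ) = genusFormula N) :
    Function.Injective (periodHomPair N)
      ∧ LinearMap.range (periodHomPair N) = parabolicHoms ℂ (Gamma0 N) ℂ := by
  have hinj : Function.Injective (periodHomPair N) := periodHomPair_injective
  refine ⟨hinj, ?_⟩
  have hfinP : Module.Finite ℂ (parabolicHoms ℂ (Gamma0 N) ℂ) := finite_parabolicHoms
  -- the source is finite-dimensional since it embeds into `parabolicHoms`
  let φ : (CuspForm (Gamma0 N) 2 × CuspForm (Gamma0 N) 2) →ₗ[ℂ]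
      parabolicHoms ℂ (Gamma0 N) ℂ :=
    LinearMap.codRestrict _ (periodHomPair N)
      (fun x => range_periodHomPair_le (LinearMap.mem_range_self _ x))
  have hφ : Function.Injective φ := by
    intro x y hxy
    apply hinj
    have := congrArg Subtype.val hxy
    exact this
  have hfin2 : Module.Finite ℂ (CuspForm (Gamma0 N) 2 × CuspForm (Gamma0 N) 2) :=
    Module.Finite.of_injective φ hφ
  have hfin1 : Module.Finite ℂ (CuspForm (Gamma0 N) 2) :=
    Module.Finite.of_injective
      (LinearMap.inl ℂ (CuspForm (Gamma0 N) 2) (CuspForm (Gamma0 N) 2)) LinearMap.inl_injective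
  have hprod : Module.finrank ℂ (CuspForm (Gamma0 N) 2 × CuspForm (Gamma0 N) 2) =
      Module.finrank ℂ (CuspForm (Gamma0 N) 2) + Module.finrank ℂ (CuspForm (Gamma0 N) 2) :=
    Module.finrank_prod
  have hrange : Module.finrank ℂ (LinearMap.range (periodHomPair N)) =
      Module.finrank ℂ (CuspForm (Gamma0 N) 2 × CuspForm (Gamma0 N) 2) :=
    LinearMap.finrank_range_of_inj hinj
  have hle : Module.finrank ℂ (parabolicHoms ℂ (Gamma0 N) ℂ) ≤
      Module.finrank ℂ (LinearMap.range (periodHomPair N)) := by
    have h1 := finrank_parabolicHoms_le_two_genus (N := N)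
    rw [← hS20] at h1
    rw [hrange, hprod]
    have h2 : (Module.finrank ℂ (parabolicHoms ℂ (Gamma0 N) ℂ) : ℚ) ≤
        ((Module.finrank ℂ (CuspForm (Gamma0 N) 2) +
          Module.finrank ℂ (CuspForm (Gamma0 N) 2) : ℕ) : ℚ) := by
      push_cast
      linarith
    exact_mod_cast h2
  exact Submodule.eq_of_le_of_finrank_le range_periodHomPair_le hle

end Fermat.Agent.S21
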