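import Mathlib

/-!
# S21, work package P2: a maximum principle on `Γ₀(N) \ ℍ`

A holomorphic function `W` on the upper half plane whose real part is invariant under `Γ₀(N)`,
and all of whose `SL(2, ℤ)`-translates are `N`-periodic with a limit at `i∞`, is constant.
-/

set_option autoImplicit false

open UpperHalfPlane hiding I
open Complex Filter Function CongruenceSubgroup
open scoped MatrixGroups ModularForm Topology Manifold Real

namespace Fermat.Agent.S21

variable {N : ℕ} [NeZero N]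

local notation "𝕢" => Periodic.qParam

namespace MaxMod

/-- The translate `w ↦ W (δ • w)`. -/
noncomputable def tr (W : ℍ → ℂ) (δ : SL(2, ℤ)) : ℍ → ℂ := fun w => W (δ • w)

lemma tr_apply (W : ℍ → ℂ) (δ : SL(2, ℤ)) (w : ℍ) : tr W δ w = W (δ • w) := rfl

lemma mdiff_tr {W : ℍ → ℂ} (hW : MDiff W) (δ : SL(2, ℤ)) : MDiff (tr W δ) := by
  have h : MDiff (fun τ : ℍ => ((δ : GL (Fin 2) ℝ)) • τ) := mdifferentiable_smul (by simp)
  exact hW.comp h

omit [NeZero N] in
lemma periodic_tr {W : ℍ → ℂ} (δ : SL(2, ℤ))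
    (hper : ∀ w : ℍ, W (δ • ((ModularGroup.T ^ N) • w)) = W (δ • w)) :
    Periodic (tr W δ ∘ ofComplex) (N : ℝ) := by
  intro w
  by_cases! hw : 0 < im w
  · have hw' : 0 < im (w + (N : ℝ)) := by simp [hw]
    simp only [comp_apply, ofComplex_apply_of_im_pos hw', ofComplex_apply_of_im_pos hw, tr_apply]
    rw [← hper ⟨w, hw⟩]
    congr 2
    have h := modular_T_zpow_smul ⟨w, hw⟩ (N : ℤ)
    rw [zpow_natCast] at h
    rw [h]
    ext
    simp [add_comm]
  · have hw' : im (w + (N : ℝ)) ≤ 0 := by simpa using hw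
    rw [comp_apply, comp_apply, ofComplex_apply_of_im_nonpos hw',
      ofComplex_apply_of_im_nonpos hw]

lemma bdd_tr {W : ℍ → ℂ} (δ : SL(2, ℤ))
    (hlim : ∃ L : ℂ, Tendsto (fun w : ℍ => W (δ • w)) atImInfty (𝓝 L)) :
    IsBoundedAtImInfty (tr W δ) := by
  obtain ⟨L, hL⟩ := hlim
  exact hL.isBigO_one ℝ

end MaxMod

open MaxMod in
theorem const_of_re_invariant (W : ℍ → ℂ) (hW : MDiff W)
    (hinv : ∀ γ ∈ Gamma0 N, ∀ z : ℍ, (W (γ • z)).re = (W z).re)
    (hlim : ∀ δ : SL(2, ℤ), ∃ L : ℂ, Tendsto (fun w : ℍ => W (δ • w)) atImInfty (𝓝 L))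
    (hper : ∀ (δ : SL(2, ℤ)) (w : ℍ), W (δ • ((ModularGroup.T ^ N) • w)) = W (δ • w)) :
    ∃ c : ℂ, ∀ z, W z = c := by
  have hN : (0 : ℝ) < N := Nat.cast_pos.mpr (NeZero.pos N)
  -- the cusp functions of the translates
  set H : SL(2, ℤ) → ℂ → ℂ := fun δ => cuspFunction N (tr W δ) with hH
  have hHdiff : ∀ δ, DifferentiableOn ℂ (H δ) (Metric.ball 0 1) := fun δ =>
    differentiableOn_cuspFunction_ball hN (periodic_tr δ (hper δ)) (mdiff_tr hW δ)
      (bdd_tr δ (hlim δ))
  have hHeq : ∀ δ (w : ℍ), H δ (𝕢 N w) = W (δ • w) := fun δ w =>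
    eq_cuspFunction w hN.ne' (periodic_tr δ (hper δ))
  -- the radius of the closed disc covering the fundamental domain
  set r : ℝ := Real.exp (-2 * π * (1 / 2) / N) with hr
  have hr0 : 0 < r := Real.exp_pos _
  have hr1 : r < 1 := by
    rw [hr, Real.exp_lt_one_iff]
    have : 0 < 2 * π * (1 / 2) / N := by positivity
    have h2 : -2 * π * (1 / 2) / N = -(2 * π * (1 / 2) / N) := by ring
    rw [h2]; linarith
  have hsub : Metric.closedBall (0 : ℂ) r ⊆ Metric.ball 0 1 :=
    Metric.closedBall_subset_ball hr1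
  -- each cusp function attains the maximum of its real part on the closed disc
  have hmax : ∀ δ, ∃ q ∈ Metric.closedBall (0 : ℂ) r,
      ∀ q' ∈ Metric.closedBall (0 : ℂ) r, (H δ q').re ≤ (H δ q).re := by
    intro δ
    have hc : ContinuousOn (fun q => (H δ q).re) (Metric.closedBall 0 r) :=
      Complex.continuous_re.comp_continuousOn ((hHdiff δ).continuousOn.mono hsub)
    obtain ⟨q, hq, hqmax⟩ := (isCompact_closedBall (0 : ℂ) r).exists_isMaxOn
      ⟨0, by simp [hr0.le]⟩ hc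
    exact ⟨q, hq, fun q' hq' => hqmax hq'⟩
  choose qm hqm hqmmax using hmax
  -- the maximum over the finitely many cosets
  obtain ⟨x0, hx0⟩ := Finite.exists_max
    (fun x : SL(2, ℤ) ⧸ Gamma0 N => (H (x.out)⁻¹ (qm (x.out)⁻¹)).re)
  set δ0 : SL(2, ℤ) := (x0.out)⁻¹ with hδ0
  set q0 : ℂ := qm δ0 with hq0
  have hq0mem : q0 ∈ Metric.ball (0 : ℂ) 1 := hsub (hqm δ0)
  -- global bound
  have hglob : ∀ z : ℍ, (W z).re ≤ (H δ0 q0).re := by
    intro z
    obtain ⟨g, hg⟩ := ModularGroup.exists_smul_mem_fd z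
    obtain ⟨h, hh⟩ := QuotientGroup.mk_out_eq_mul (Gamma0 N) g
    set x : SL(2, ℤ) ⧸ Gamma0 N := (g : SL(2, ℤ) ⧸ Gamma0 N) with hx
    set δ : SL(2, ℤ) := (x.out)⁻¹ with hδ
    set w : ℍ := g • z with hw
    have hz : z = (h : SL(2, ℤ)) • (δ • w) := by
      rw [hδ, hh, hw, ← mul_smul, ← mul_smul]
      simp
    have him : (1 : ℝ) / 2 ≤ w.im := by
      have h3 := ModularGroup.three_le_four_mul_im_sq_of_mem_fd hg
      have hpos := w.im_pos
      nlinarith
    have hqw : 𝕢 N w ∈ Metric.closedBall (0 : ℂ) r := by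
      rw [mem_closedBall_zero_iff, Periodic.norm_qParam, hr, Real.exp_le_exp]
      have h2 : -2 * π * (w : ℂ).im / N ≤ -2 * π * (1 / 2) / N := by
        apply div_le_div_of_nonneg_right _ hN.le
        have : (w : ℂ).im = w.im := rfl
        rw [this]
        nlinarith [Real.pi_pos]
      exact h2
    calc (W z).re = (W (δ • w)).re := by rw [hz]; exact hinv _ h.2 _
      _ = (H δ (𝕢 N w)).re := by rw [hHeq]
      _ ≤ (H δ (qm δ)).re := hqmmax δ _ hqw
      _ ≤ (H δ0 q0).re := hx0 x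
  -- the real part of `H δ0` is maximal at `q0` on the whole unit disc
  have hball' : ∀ q ∈ Metric.ball (0 : ℂ) 1, q ≠ 0 → (H δ0 q).re ≤ (H δ0 q0).re := by
    intro q hq hq'
    have hw : 0 < (Periodic.invQParam N q).im :=
      Periodic.im_invQParam_pos_of_norm_lt_one hN (by simpa using hq) hq'
    have h1 := hHeq δ0 ⟨_, hw⟩
    rw [UpperHalfPlane.coe_mk, Periodic.qParam_right_inv hN.ne' hq'] at h1
    rw [h1]
    exact hglob _
  have hball : ∀ q ∈ Metric.ball (0 : ℂ) 1, (H δ0 q).re ≤ (H δ0 q0).re := by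
    intro q hq
    by_cases hq' : q = 0
    · subst hq'
      have hcont : ContinuousAt (fun q => (H δ0 q).re) 0 :=
        Complex.continuous_re.continuousAt.comp
          ((hHdiff δ0).continuousOn.continuousAt (Metric.ball_mem_nhds 0 one_pos))
      have hne : (𝓝[≠] (0 : ℂ)).NeBot := inferInstance
      have htend : Tendsto (fun q => (H δ0 q).re) (𝓝[≠] (0 : ℂ)) (𝓝 (H δ0 0).re) :=
        hcont.tendsto.mono_left nhdsWithin_le_nhds
      refine le_of_tendsto htend ?_
      filter_upwards [self_mem_nhdsWithin (a := (0 : ℂ)) (s := {0}ᶜ),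
        mem_nhdsWithin_of_mem_nhds (Metric.ball_mem_nhds (0 : ℂ) one_pos)] with q hq0 hq1
      exact hball' q hq1 hq0
    · exact hball' q hq hq'
  -- open mapping theorem
  have hconst : ∃ c, ∀ q ∈ Metric.ball (0 : ℂ) 1, H δ0 q = c := by
    have han : AnalyticOnNhd ℂ (H δ0) (Metric.ball 0 1) :=
      (hHdiff δ0).analyticOnNhd Metric.isOpen_ball
    rcases han.is_constant_or_isOpen (convex_ball (0 : ℂ) 1).isPreconnected with h | h
    · exact h
    · exfalso
      have hopen := h (Metric.ball 0 1) subset_rfl Metric.isOpen_ball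
      have hmem : H δ0 q0 ∈ H δ0 '' Metric.ball 0 1 := ⟨q0, hq0mem, rfl⟩
      obtain ⟨ε, hε, hsub'⟩ := Metric.isOpen_iff.mp hopen _ hmem
      have hin : H δ0 q0 + ((ε / 2 : ℝ) : ℂ) ∈ Metric.ball (H δ0 q0) ε := by
        rw [Metric.mem_ball, dist_eq_norm, add_sub_cancel_left, Complex.norm_real,
          Real.norm_eq_abs, abs_of_pos (by positivity)]
        linarith
      obtain ⟨q, hq, hqe⟩ := hsub' hin
      have h1 := hball q hq
      rw [hqe] at h1
      simp only [add_re, ofReal_re] at h1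
      linarith
  obtain ⟨c, hc⟩ := hconst
  refine ⟨c, fun z => ?_⟩
  have h1 := hHeq δ0 (δ0⁻¹ • z)
  rw [smul_inv_smul] at h1
  rw [← h1]
  refine hc _ ?_
  rw [mem_ball_zero_iff]
  exact Periodic.norm_qParam_lt_one hN (δ0⁻¹ • z).im_pos

end Fermat.Agent.S21
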