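import Mathlib
import Fermat.Prelude.Def_ModularCurve_PeriodHomPair
import Fermat.Prelude.Def_ModularCurve_GenusNumerics
import Fermat.Agent.S22.Prim
import Fermat.Agent.S22.PolyFun
import Fermat.Agent.S22.Inject

set_option autoImplicit false
set_option linter.unusedSectionVars false

open UpperHalfPlane hiding I
open Complex Filter Function CongruenceSubgroup ModularCurve ModularCurve.Period
open scoped MatrixGroups ModularForm Topology Manifold Derivative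

namespace Fermat.Agent.S21

variable {N : ℕ} [NeZero N]

namespace Prim

/-- The complex derivative of a holomorphic function on the upper half plane, in terms of `D`. -/
theorem hasDerivAt_of_mdiff {Φ : ℍ → ℂ} (hΦ : MDiff Φ) (τ : ℍ) :
    HasDerivAt (Φ ∘ ofComplex) (2 * Real.pi * I * D Φ τ) (τ : ℂ) := by
  have h := (UpperHalfPlane.mdifferentiableAt_iff.mp (hΦ τ)).hasDerivAt
  have e : 2 * Real.pi * I * D Φ τ = deriv (Φ ∘ ofComplex) (τ : ℂ) := by
    simp only [Derivative.normalizedDerivOfComplex]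
    have hpi : (2 * (Real.pi : ℂ) * I) ≠ 0 := Complex.two_pi_I_ne_zero
    field_simp
  rw [e]
  exact h

/-- A function with a complex derivative everywhere is holomorphic. -/
theorem mdiff_of_hasDerivAt {F : ℍ → ℂ} {f : ℍ → ℂ}
    (h : ∀ τ : ℍ, HasDerivAt (F ∘ ofComplex) (f τ) ↑τ) : MDiff F := by
  rw [UpperHalfPlane.mdifferentiable_iff]
  intro z hz
  exact (h ⟨z, hz⟩).differentiableAt.differentiableWithinAt

theorem D_of_hasDerivAt {F : ℍ → ℂ} {f : ℍ → ℂ}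
    (h : ∀ τ : ℍ, HasDerivAt (F ∘ ofComplex) (f τ) ↑τ) :
    D F = fun τ => (2 * Real.pi * I)⁻¹ * f τ := by
  funext τ
  simp only [Derivative.normalizedDerivOfComplex]
  rw [(h τ).deriv]

theorem slash_zero_apply (F : ℍ → ℂ) (δ : SL(2, ℤ)) (w : ℍ) :
    (F ∣[(0 : ℤ)] δ) w = F (δ • w) := by
  rw [ModularForm.SL_slash_apply]
  simp

theorem mdiff_slash_SL {F : ℍ → ℂ} (hF : MDiff F) (k : ℤ) (γ : SL(2, ℤ)) :
    MDiff (F ∣[k] γ) := by
  rw [ModularForm.SL_slash]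
  exact hF.slash k _

/-- The derivative of a translate of a primitive. -/
theorem D_slash_zero {F : ℍ → ℂ} {f : ℍ → ℂ}
    (h : ∀ τ : ℍ, HasDerivAt (F ∘ ofComplex) (f τ) ↑τ) (δ : SL(2, ℤ)) :
    D (F ∣[(0 : ℤ)] δ) = fun τ => (2 * Real.pi * I)⁻¹ * (f ∣[(2 : ℤ)] δ) τ := by
  have hF : MDiff F := mdiff_of_hasDerivAt h
  rw [Derivative.normalizedDerivOfComplex_SL_slash hF, D_of_hasDerivAt h]
  funext τ
  simp only [Pi.sub_apply, Int.cast_zero, zero_mul, sub_zero, zero_add]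
  rw [ModularForm.SL_slash_apply, ModularForm.SL_slash_apply]
  ring

omit [NeZero N] in
theorem periodic_cuspForm (f : CuspForm (Gamma0 N) 2) : Periodic (⇑f ∘ ofComplex) ((1 : ℝ) : ℂ) :=
  SlashInvariantFormClass.periodic_comp_ofComplex f
    (CongruenceSubgroup.one_mem_strictPeriods_Gamma0 N)

/-- Translates of a cusp form on `Γ₀(N)` by `SL(2, ℤ)` have a primitive vanishing at `i∞`. -/
theorem exists_primitive_slash (f : CuspForm (Gamma0 N) 2) (δ : SL(2, ℤ)) :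
    ∃ Ψ : ℍ → ℂ, MDiff Ψ ∧ IsZeroAtImInfty Ψ ∧ D Ψ = ⇑f ∣[(2 : ℤ)] δ := by
  have hinv : ∀ γ ∈ Gamma0 N, ⇑f ∣[(2 : ℤ)] γ = ⇑f :=
    fun γ hγ => Fermat.Agent.S22.Inject.cuspForm_slash_Gamma0 N f γ hγ
  have hper : Periodic ((⇑f ∣[(2 : ℤ)] δ) ∘ ofComplex) ((((1 * N : ℤ)) : ℝ) : ℂ) :=
    Fermat.Agent.S22.Inject.periodic_of_vadd
      (fun z => Fermat.Agent.S22.Inject.slash_conj_vadd N 2 ⇑f hinv δ 1 z)
  have hpos : (0 : ℝ) < ((1 * N : ℤ) : ℝ) := by
    have : 0 < N := Nat.pos_of_ne_zero (NeZero.ne N)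
    push_cast
    simpa using this
  have hhol : MDiff (⇑f ∣[(2 : ℤ)] δ) := mdiff_slash_SL (CuspFormClass.holo f) 2 δ
  have hzero : IsZeroAtImInfty (⇑f ∣[(2 : ℤ)] δ) := CuspFormClass.zero_at_infty_slash f δ
  obtain ⟨Ψ, -, h1, h2, h3⟩ :=
    Fermat.Agent.S22.exists_primitive_periodic hpos hper hhol hzero
  exact ⟨Ψ, h1, h2, h3⟩

end Prim

open Prim

theorem exists_hasEquivariantPrimitive (f : CuspForm (Gamma0 N) 2) :
    ∃ F : ℍ → ℂ, HasEquivariantPrimitive N f F := by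
  have hpi : (2 * (Real.pi : ℂ) * I) ≠ 0 := Complex.two_pi_I_ne_zero
  obtain ⟨Φ, -, hΦ, hΦ0, hDΦ⟩ := Fermat.Agent.S22.exists_primitive_periodic one_pos
    (periodic_cuspForm f) (CuspFormClass.holo f) (CuspFormClass.zero_at_infty f)
  set F : ℍ → ℂ := fun τ => (2 * Real.pi * I)⁻¹ * Φ τ with hFdef
  have hder : ∀ τ : ℍ, HasDerivAt (F ∘ ofComplex) (f τ) ↑τ := by
    intro τ
    have h := (hasDerivAt_of_mdiff hΦ τ).const_mul ((2 * Real.pi * I)⁻¹)
    rw [hDΦ] at h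
    have e : (2 * Real.pi * I)⁻¹ * (2 * Real.pi * I * f τ) = f τ := by field_simp
    rw [e] at h
    exact h
  have hF : MDiff F := mdiff_of_hasDerivAt hder
  refine ⟨F, hder, ?_, ?_, ?_⟩
  · have h : Tendsto (fun τ => (2 * Real.pi * I)⁻¹ * Φ τ) atImInfty
        (𝓝 ((2 * Real.pi * I)⁻¹ * 0)) := Tendsto.const_mul _ hΦ0
    rw [mul_zero] at h
    exact h
  · intro γ
    have hγ : ((γ : SL(2, ℤ))) ∈ Gamma0 N := γ.2
    have hG : MDiff (F ∣[(0 : ℤ)] (γ : SL(2, ℤ)) - F) := (mdiff_slash_SL hF 0 _).sub hF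
    have hD : D (F ∣[(0 : ℤ)] (γ : SL(2, ℤ)) - F) = 0 := by
      rw [Derivative.normalizedDerivOfComplex_sub _ _ (mdiff_slash_SL hF 0 _) hF,
        D_slash_zero hder, D_of_hasDerivAt hder,
        Fermat.Agent.S22.Inject.cuspForm_slash_Gamma0 N f _ hγ]
      funext τ
      simp
    obtain ⟨c, hc⟩ := Fermat.Agent.S22.PolyFun.eq_const_of_D_eq_zero hG hD
    refine ⟨c, fun z => ?_⟩
    have := hc z
    rwa [Pi.sub_apply, slash_zero_apply] at this
  · intro δ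
    obtain ⟨Ψ, hΨ, hΨ0, hDΨ⟩ := exists_primitive_slash f δ
    set G : ℍ → ℂ := fun τ => (2 * Real.pi * I)⁻¹ * Ψ τ with hGdef
    have hGm : MDiff G := by
      have : G = (2 * Real.pi * I)⁻¹ • Ψ := by funext τ; simp [hGdef]
      rw [this]
      exact hΨ.const_smul _
    have hDG : D G = fun τ => (2 * Real.pi * I)⁻¹ * (⇑f ∣[(2 : ℤ)] δ) τ := by
      have : G = (2 * Real.pi * I)⁻¹ • Ψ := by funext τ; simp [hGdef]
      rw [this, Derivative.normalizedDerivOfComplex_smul _ _ hΨ, hDΨ]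
      funext τ
      simp
    have hsub : MDiff (F ∣[(0 : ℤ)] δ - G) := (mdiff_slash_SL hF 0 _).sub hGm
    have hD : D (F ∣[(0 : ℤ)] δ - G) = 0 := by
      rw [Derivative.normalizedDerivOfComplex_sub _ _ (mdiff_slash_SL hF 0 _) hGm,
        D_slash_zero hder, hDG, sub_self]
    obtain ⟨c, hc⟩ := Fermat.Agent.S22.PolyFun.eq_const_of_D_eq_zero hsub hD
    refine ⟨c, ?_⟩
    have hG0 : Tendsto G atImInfty (𝓝 0) := by
      have h : Tendsto (fun τ => (2 * Real.pi * I)⁻¹ * Ψ τ) atImInfty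
          (𝓝 ((2 * Real.pi * I)⁻¹ * 0)) := Tendsto.const_mul _ hΨ0
      rw [mul_zero] at h
      exact h
    have h2 : Tendsto (fun w => c + G w) atImInfty (𝓝 (c + 0)) := tendsto_const_nhds.add hG0
    rw [add_zero] at h2
    refine h2.congr fun w => ?_
    have := hc w
    rw [Pi.sub_apply, slash_zero_apply] at this
    rw [← this]
    ring

/-- the primitive is holomorphic -/
theorem mdiff_of_hasEquivariantPrimitive {f : CuspForm (Gamma0 N) 2} {F : ℍ → ℂ}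
    (hF : HasEquivariantPrimitive N f F) : MDiff F :=
  mdiff_of_hasDerivAt hF.1

theorem hasEquivariantPrimitive_unique {f : CuspForm (Gamma0 N) 2} {F F' : ℍ → ℂ}
    (hF : HasEquivariantPrimitive N f F) (hF' : HasEquivariantPrimitive N f F') : F = F' := by
  have h1 : MDiff F := mdiff_of_hasDerivAt hF.1
  have h2 : MDiff F' := mdiff_of_hasDerivAt hF'.1
  have hD : D (F - F') = 0 := by
    rw [Derivative.normalizedDerivOfComplex_sub _ _ h1 h2, D_of_hasDerivAt hF.1,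
      D_of_hasDerivAt hF'.1, sub_self]
  obtain ⟨c, hc⟩ := Fermat.Agent.S22.PolyFun.eq_const_of_D_eq_zero (h1.sub h2) hD
  have hlim : Tendsto (F - F') atImInfty (𝓝 (0 - 0)) := hF.2.1.sub hF'.2.1
  have hconst : Tendsto (F - F') atImInfty (𝓝 c) := by
    have : (F - F') = fun _ => c := funext hc
    rw [this]
    exact tendsto_const_nhds
  have hc0 : c = 0 := by
    have := tendsto_nhds_unique hconst hlim
    simpa using this
  funext z
  have := hc z
  rw [hc0, Pi.sub_apply, sub_eq_zero] at this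
  exact this

theorem hasEquivariantPrimitive_add {f g : CuspForm (Gamma0 N) 2} {F G : ℍ → ℂ}
    (hF : HasEquivariantPrimitive N f F) (hG : HasEquivariantPrimitive N g G) :
    HasEquivariantPrimitive N (f + g) (F + G) := by
  refine ⟨fun τ => ?_, ?_, ?_, ?_⟩
  · exact (hF.1 τ).add (hG.1 τ)
  · have := hF.2.1.add hG.2.1
    rw [add_zero] at this
    exact this
  · intro γ
    obtain ⟨c, hc⟩ := hF.2.2.1 γ
    obtain ⟨d, hd⟩ := hG.2.2.1 γ
    refine ⟨c + d, fun z => ?_⟩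
    simp only [Pi.add_apply]
    rw [← hc z, ← hd z]
    ring
  · intro δ
    obtain ⟨L, hL⟩ := hF.2.2.2 δ
    obtain ⟨L', hL'⟩ := hG.2.2.2 δ
    exact ⟨L + L', hL.add hL'⟩

theorem hasEquivariantPrimitive_smul (c : ℂ) {f : CuspForm (Gamma0 N) 2} {F : ℍ → ℂ}
    (hF : HasEquivariantPrimitive N f F) : HasEquivariantPrimitive N (c • f) (c • F) := by
  refine ⟨fun τ => ?_, ?_, ?_, ?_⟩
  · exact (hF.1 τ).const_mul c
  · have := hF.2.1.const_mul c
    rw [mul_zero] at this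
    exact this
  · intro γ
    obtain ⟨d, hd⟩ := hF.2.2.1 γ
    refine ⟨c * d, fun z => ?_⟩
    simp only [Pi.smul_apply, smul_eq_mul]
    rw [← hd z]
    ring
  · intro δ
    obtain ⟨L, hL⟩ := hF.2.2.2 δ
    exact ⟨c * L, hL.const_mul c⟩

theorem periodMap_apply {f : CuspForm (Gamma0 N) 2} {F : ℍ → ℂ}
    (hF : HasEquivariantPrimitive N f F) (γ : Gamma0 N) (z : ℍ) :
    periodMap N f (Additive.ofMul γ) = F ((γ : SL(2, ℤ)) • z) - F z := by
  obtain ⟨F₀, h₀, he⟩ := periodMap_def N f hF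
  have hu : F₀ = F := hasEquivariantPrimitive_unique h₀ hF
  subst hu
  rw [he, IsEquivariantPrimitive.periodHom_apply, ← h₀.2.2.1.sub_eq_period γ z]

theorem existsPeriodMapLinear : ExistsPeriodMapLinear N := by
  refine ⟨{ toFun := periodMap N, map_add' := ?_, map_smul' := ?_ }, fun f => rfl⟩
  · intro f g
    obtain ⟨F, hF⟩ := exists_hasEquivariantPrimitive f
    obtain ⟨G, hG⟩ := exists_hasEquivariantPrimitive g
    refine AddMonoidHom.ext fun γ => ?_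
    rw [show γ = Additive.ofMul (Additive.toMul γ) from rfl, AddMonoidHom.add_apply,
      periodMap_apply (hasEquivariantPrimitive_add hF hG) _ UpperHalfPlane.I,
      periodMap_apply hF _ UpperHalfPlane.I, periodMap_apply hG _ UpperHalfPlane.I]
    simp only [Pi.add_apply]
    ring
  · intro c f
    obtain ⟨F, hF⟩ := exists_hasEquivariantPrimitive f
    refine AddMonoidHom.ext fun γ => ?_
    rw [show γ = Additive.ofMul (Additive.toMul γ) from rfl,
      periodMap_apply (hasEquivariantPrimitive_smul c hF) _ UpperHalfPlane.I]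
    simp only [RingHom.id_apply, AddMonoidHom.smul_apply, Pi.smul_apply, smul_eq_mul]
    rw [periodMap_apply hF _ UpperHalfPlane.I]
    ring

namespace Prim

/-- An element of `SL(2, ℤ)` with trace `±2` is conjugate to an element fixing `∞`. -/
theorem exists_conj_fix_infty (γ : SL(2, ℤ))
    (h : (γ : Matrix (Fin 2) (Fin 2) ℤ).trace ^ 2 = 4) :
    ∃ δ : SL(2, ℤ), (δ⁻¹ * γ * δ) 1 0 = 0 := by
  have hdet : γ 0 0 * γ 1 1 - γ 0 1 * γ 1 0 = 1 := by
    have := γ.det_coe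
    rw [Matrix.det_fin_two] at this
    exact this
  have htr : (γ 0 0 + γ 1 1) ^ 2 = 4 := by
    rw [Matrix.trace_fin_two] at h
    exact h
  by_cases hc : γ 1 0 = 0
  · exact ⟨1, by simpa using hc⟩
  · set g₀ : ℕ := Int.gcd (γ 0 0 - γ 1 1) (2 * γ 1 0) with hg₀
    have hg₀pos : 0 < g₀ := Int.gcd_pos_of_ne_zero_right _ (by simpa using hc)
    have hcop : IsCoprime ((γ 0 0 - γ 1 1) / (g₀ : ℤ)) ((2 * γ 1 0) / (g₀ : ℤ)) := by
      rw [Int.isCoprime_iff_gcd_eq_one]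
      exact Int.gcd_div_gcd_div_gcd hg₀pos
    obtain ⟨δ, hδ0, hδ1⟩ := hcop.exists_SL2_col 0
    have hp : δ 0 0 * (g₀ : ℤ) = γ 0 0 - γ 1 1 := by
      rw [hδ0]
      exact Int.ediv_mul_cancel (Int.gcd_dvd_left _ _)
    have hq : δ 1 0 * (g₀ : ℤ) = 2 * γ 1 0 := by
      rw [hδ1]
      exact Int.ediv_mul_cancel (Int.gcd_dvd_right _ _)
    refine ⟨δ, ?_⟩
    have key : (δ⁻¹ * γ * δ) 1 0 =
        γ 1 0 * δ 0 0 ^ 2 + (γ 1 1 - γ 0 0) * δ 0 0 * δ 1 0 - γ 0 1 * δ 1 0 ^ 2 := by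
      rw [Matrix.SpecialLinearGroup.coe_mul, Matrix.SpecialLinearGroup.coe_mul,
        Matrix.SpecialLinearGroup.coe_inv, Matrix.adjugate_fin_two]
      simp [Matrix.mul_apply, Fin.sum_univ_two, Matrix.vecMul, dotProduct]
      ring
    rw [key]
    have hg₀ne : ((g₀ : ℤ)) ^ 2 ≠ 0 := by positivity
    have hmul : (γ 1 0 * δ 0 0 ^ 2 + (γ 1 1 - γ 0 0) * δ 0 0 * δ 1 0 - γ 0 1 * δ 1 0 ^ 2) *
        (g₀ : ℤ) ^ 2 = 0 := by
      have e : (γ 1 0 * δ 0 0 ^ 2 + (γ 1 1 - γ 0 0) * δ 0 0 * δ 1 0 - γ 0 1 * δ 1 0 ^ 2) *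
          (g₀ : ℤ) ^ 2 = γ 1 0 * (δ 0 0 * g₀) ^ 2 + (γ 1 1 - γ 0 0) * (δ 0 0 * g₀) * (δ 1 0 * g₀)
            - γ 0 1 * (δ 1 0 * g₀) ^ 2 := by ring
      rw [e, hp, hq]
      linear_combination (-γ 1 0) * htr + (4 * γ 1 0) * hdet
    exact (mul_eq_zero.mp hmul).resolve_right hg₀ne

/-- A parabolic element acts as a translation in suitable coordinates. -/
theorem exists_smul_eq_vadd (γ : SL(2, ℤ))
    (h : (γ : Matrix (Fin 2) (Fin 2) ℤ).trace ^ 2 = 4) :
    ∃ (δ : SL(2, ℤ)) (n : ℤ), ∀ w : ℍ, γ • (δ • w) = δ • ((n : ℝ) +ᵥ w) := by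
  obtain ⟨δ, hδ⟩ := exists_conj_fix_infty γ h
  obtain ⟨n, hn⟩ := ModularGroup.exists_eq_T_zpow_of_c_eq_zero hδ
  refine ⟨δ, n, fun w => ?_⟩
  have h1 := hn w
  rw [UpperHalfPlane.modular_T_zpow_smul] at h1
  rw [← h1, ← mul_smul, ← mul_smul]
  congr 1
  group

theorem tendsto_vadd_atImInfty (x : ℝ) :
    Tendsto (fun w : ℍ => x +ᵥ w) atImInfty atImInfty := by
  rw [atImInfty, tendsto_comap_iff]
  have : (UpperHalfPlane.im ∘ fun w : ℍ => x +ᵥ w) = UpperHalfPlane.im := by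
    funext w
    simp
  rw [this]
  exact tendsto_comap

end Prim

theorem periodMap_mem_parabolicHoms (f : CuspForm (Gamma0 N) 2) :
    periodMap N f ∈ parabolicHoms ℂ (Gamma0 N) ℂ := by
  rw [mem_parabolicHoms_iff]
  intro γ hγ
  obtain ⟨F, hF⟩ := exists_hasEquivariantPrimitive f
  obtain ⟨δ, n, hδ⟩ := exists_smul_eq_vadd (γ : SL(2, ℤ)) hγ
  obtain ⟨L, hL⟩ := hF.2.2.2 δ
  have h1 : ∀ w : ℍ, periodMap N f (Additive.ofMul γ) =
      F (δ • ((n : ℝ) +ᵥ w)) - F (δ • w) := fun w => by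
    rw [periodMap_apply hF γ (δ • w), hδ w]
  have h2 : Tendsto (fun w : ℍ => F (δ • ((n : ℝ) +ᵥ w)) - F (δ • w)) atImInfty (𝓝 (L - L)) :=
    (hL.comp (tendsto_vadd_atImInfty (n : ℝ))).sub hL
  have h3 : Tendsto (fun _ : ℍ => periodMap N f (Additive.ofMul γ)) atImInfty (𝓝 (L - L)) :=
    h2.congr fun w => (h1 w).symm
  have := tendsto_nhds_unique h3 tendsto_const_nhds
  rw [sub_self] at this
  exact this.symm

end Fermat.Agent.S21
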