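import Mathlib
import Fermat.Prelude.Def_ModularCurve_PeriodHomPair
import Fermat.Prelude.Def_ModularCurve_GenusNumerics
import Fermat.Agent.S21.Prim
import Fermat.Agent.S21.MaxMod

set_option autoImplicit false
set_option linter.unusedSectionVars false

open UpperHalfPlane hiding I
open Complex Filter Function CongruenceSubgroup ModularCurve ModularCurve.Period
open scoped MatrixGroups ModularForm Topology Manifold

namespace Fermat.Agent.S21

variable {N : ℕ} [NeZero N]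

namespace Inj

/-- The reflection `z ↦ -conj z` intertwines `γ` and `jγj`. -/
lemma J_smul_smul (γ : SL(2, ℤ)) (z : ℍ) : J • (γ • z) = (jConjSL γ) • (J • z) := by
  apply UpperHalfPlane.ext
  rw [coe_J_smul, coe_specialLinearGroup_apply, coe_specialLinearGroup_apply, coe_J_smul]
  simp only [jConjSL_coe, jConjMat, map_div₀, map_add, map_mul, Complex.conj_ofReal,
    Matrix.of_apply, Matrix.cons_val', Matrix.cons_val_zero, Matrix.cons_val_one,
    Matrix.cons_val_fin_one, map_neg, Complex.ofReal_neg]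
  rw [← neg_div]
  congr 1 <;> ring

lemma J_smul_J_smul (z : ℍ) : J • (J • z) = z := by
  rw [← mul_smul, ← sq, J_sq, one_smul]

lemma im_J_smul (z : ℍ) : (J • z).im = z.im := by
  have h := congrArg Complex.im (coe_J_smul z)
  simpa using h

lemma tendsto_J_smul : Tendsto (fun w : ℍ => J • w) atImInfty atImInfty := by
  rw [atImInfty, tendsto_comap_iff]
  have h : (UpperHalfPlane.im ∘ fun w : ℍ => J • w) = UpperHalfPlane.im := funext im_J_smul
  rw [h]
  exact tendsto_comap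

/-- The reflected function `z ↦ conj (A (-conj z))`. -/
noncomputable def refl (A : ℍ → ℂ) : ℍ → ℂ := fun z => (starRingEnd ℂ) (A (J • z))

lemma refl_smul (A : ℍ → ℂ) (γ : SL(2, ℤ)) (z : ℍ) :
    refl A (γ • z) = (starRingEnd ℂ) (A ((jConjSL γ) • (J • z))) := by
  simp only [refl, J_smul_smul]

lemma conj_refl_J (A : ℍ → ℂ) (z : ℍ) : (starRingEnd ℂ) (refl A (J • z)) = A z := by
  simp only [refl, J_smul_J_smul, Complex.conj_conj]

lemma mdiff_refl {A : ℍ → ℂ} (hA : MDiff A) : MDiff (refl A) := by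
  rw [UpperHalfPlane.mdifferentiable_iff] at hA ⊢
  intro z hz
  have hopen : IsOpen {z : ℂ | 0 < z.im} := isOpen_upperHalfPlaneSet
  have hz' : (0 : ℝ) < (-(starRingEnd ℂ) z).im := by simpa using hz
  have h1 : DifferentiableAt ℂ (A ∘ ofComplex) (-(starRingEnd ℂ) z) :=
    (hA _ hz').differentiableAt (hopen.mem_nhds hz')
  have h2 : DifferentiableAt ℂ (fun w : ℂ => (A ∘ ofComplex) (-w)) ((starRingEnd ℂ) z) :=
    h1.comp _ (differentiable_neg _)
  have h3 : DifferentiableAt ℂ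
      ((starRingEnd ℂ) ∘ (fun w : ℂ => (A ∘ ofComplex) (-w)) ∘ (starRingEnd ℂ)) z := by
    have := h2.conj_conj
    simpa using this
  refine (h3.congr_of_eventuallyEq ?_).differentiableWithinAt
  filter_upwards [hopen.mem_nhds hz] with w hw
  simp only [refl, comp_apply]
  rw [UpperHalfPlane.J_smul, ofComplex_apply_of_im_pos hw]

/-- conjugates of `T ^ N` lie in `Γ₀(N)` -/
lemma conj_T_pow_mem (δ : SL(2, ℤ)) : δ * ModularGroup.T ^ N * δ⁻¹ ∈ Gamma0 N := by
  have h1 : ModularGroup.T ^ N ∈ CongruenceSubgroup.Gamma N := by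
    have := ModularGroup_T_pow_mem_Gamma (N : ℤ) (N : ℤ) dvd_rfl
    simpa using this
  have h2 : δ * ModularGroup.T ^ N * δ⁻¹ ∈ CongruenceSubgroup.Gamma N :=
    (CongruenceSubgroup.Gamma_normal N).conj_mem _ h1 δ
  rw [CongruenceSubgroup.Gamma_mem] at h2
  rw [Gamma0_mem]
  exact h2.2.2.1

omit [NeZero N] in
lemma trace_conj_T_pow (δ : SL(2, ℤ)) :
    ((δ * ModularGroup.T ^ N * δ⁻¹ : SL(2, ℤ)) : Matrix (Fin 2) (Fin 2) ℤ).trace ^ 2 = 4 := by
  have h1 : ((δ * ModularGroup.T ^ N * δ⁻¹ : SL(2, ℤ)) : Matrix (Fin 2) (Fin 2) ℤ) =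
      (δ : Matrix (Fin 2) (Fin 2) ℤ) * ((ModularGroup.T ^ N : SL(2, ℤ)) : Matrix (Fin 2) (Fin 2) ℤ)
        * ((δ⁻¹ : SL(2, ℤ)) : Matrix (Fin 2) (Fin 2) ℤ) := by
    simp only [Matrix.SpecialLinearGroup.coe_mul]
  have h2 : ((δ⁻¹ : SL(2, ℤ)) : Matrix (Fin 2) (Fin 2) ℤ) * (δ : Matrix (Fin 2) (Fin 2) ℤ) = 1 := by
    rw [← Matrix.SpecialLinearGroup.coe_mul, inv_mul_cancel, Matrix.SpecialLinearGroup.coe_one]
  have h3 : ((ModularGroup.T ^ N : SL(2, ℤ)) : Matrix (Fin 2) (Fin 2) ℤ) = !![1, (N : ℤ); 0, 1] := by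
    have := ModularGroup.coe_T_zpow (N : ℤ)
    simpa using this
  rw [h1, Matrix.trace_mul_cycle, h2, one_mul, h3, Matrix.trace_fin_two_of]
  norm_num

/-- Periodicity at every cusp of an equivariant primitive. -/
lemma prim_periodic {f : CuspForm (Gamma0 N) 2} {A : ℍ → ℂ} (hA : HasEquivariantPrimitive N f A)
    (δ : SL(2, ℤ)) (w : ℍ) : A (δ • ((ModularGroup.T ^ N) • w)) = A (δ • w) := by
  have hpar := periodMap_mem_parabolicHoms (N := N) f
  rw [mem_parabolicHoms_iff] at hpar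
  have h0 := hpar ⟨δ * ModularGroup.T ^ N * δ⁻¹, conj_T_pow_mem δ⟩ (trace_conj_T_pow δ)
  rw [periodMap_apply hA _ (δ • w)] at h0
  have h1 : ((⟨δ * ModularGroup.T ^ N * δ⁻¹, conj_T_pow_mem δ⟩ : Gamma0 N) : SL(2, ℤ)) • (δ • w)
      = δ • ((ModularGroup.T ^ N) • w) := by
    show (δ * ModularGroup.T ^ N * δ⁻¹) • (δ • w) = _
    rw [mul_smul, mul_smul, inv_smul_smul]
  rw [h1] at h0
  exact sub_eq_zero.mp h0

lemma jConjSL_T : jConjSL ModularGroup.T = ModularGroup.T⁻¹ := by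
  apply Subtype.ext
  rw [jConjSL_coe, ModularGroup.coe_T_inv, ModularGroup.coe_T]
  ext i j
  fin_cases i <;> fin_cases j <;> simp [jConjMat]

lemma jConjSL_T_pow (n : ℕ) : jConjSL (ModularGroup.T ^ n) = (ModularGroup.T ^ n)⁻¹ := by
  rw [map_pow, jConjSL_T, inv_pow]

lemma prim_periodic_inv {f : CuspForm (Gamma0 N) 2} {A : ℍ → ℂ}
    (hA : HasEquivariantPrimitive N f A) (δ : SL(2, ℤ)) (w : ℍ) :
    A (δ • ((ModularGroup.T ^ N)⁻¹ • w)) = A (δ • w) := by
  have h := prim_periodic hA δ ((ModularGroup.T ^ N)⁻¹ • w)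
  rw [smul_inv_smul] at h
  exact h.symm

lemma refl_periodic {f : CuspForm (Gamma0 N) 2} {A : ℍ → ℂ}
    (hA : HasEquivariantPrimitive N f A) (δ : SL(2, ℤ)) (w : ℍ) :
    refl A (δ • ((ModularGroup.T ^ N) • w)) = refl A (δ • w) := by
  rw [refl_smul, refl_smul, J_smul_smul, jConjSL_T_pow, prim_periodic_inv hA]

lemma refl_tendsto {f : CuspForm (Gamma0 N) 2} {A : ℍ → ℂ}
    (hA : HasEquivariantPrimitive N f A) (δ : SL(2, ℤ)) :
    ∃ L : ℂ, Tendsto (fun w : ℍ => refl A (δ • w)) atImInfty (𝓝 L) := by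
  obtain ⟨L, hL⟩ := hA.2.2.2 (jConjSL δ)
  refine ⟨(starRingEnd ℂ) L, ?_⟩
  have h1 : Tendsto (fun w : ℍ => A (jConjSL δ • (J • w))) atImInfty (𝓝 L) :=
    hL.comp tendsto_J_smul
  have h2 := (Complex.continuous_conj.tendsto L).comp h1
  refine h2.congr (fun w => ?_)
  show (starRingEnd ℂ) (A (jConjSL δ • (J • w))) = refl A (δ • w)
  rw [refl_smul]

/-- The analytic core: if the `±`-combination of the period homomorphisms vanishes, both
primitives are constant. -/
lemma const_of_key {f g : CuspForm (Gamma0 N) 2} {A B : ℍ → ℂ}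
    (hA : HasEquivariantPrimitive N f A) (hB : HasEquivariantPrimitive N g B)
    (key : ∀ (γ : Gamma0 N) (z z' : ℍ),
      (A ((γ : SL(2, ℤ)) • z) - A z) + (A (jConjSL (γ : SL(2, ℤ)) • z') - A z')
        + ((B ((γ : SL(2, ℤ)) • z) - B z) - (B (jConjSL (γ : SL(2, ℤ)) • z') - B z')) = 0) :
    ∃ c d : ℂ, (∀ z, A z = c) ∧ ∀ z, B z = d := by
  have hAd : MDiff A := mdiff_of_hasEquivariantPrimitive hA
  have hBd : MDiff B := mdiff_of_hasEquivariantPrimitive hB
  have hRAd : MDiff (refl A) := mdiff_refl hAd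
  have hRBd : MDiff (refl B) := mdiff_refl hBd
  -- the two combinations
  set S : ℍ → ℂ := fun z => A z + B z with hS
  set R : ℍ → ℂ := fun z => refl A z - refl B z with hR
  have hSd : MDiff S := hAd.add hBd
  have hRd : MDiff R := hRAd.sub hRBd
  -- transformation under Γ₀(N)
  have htrans : ∀ γ ∈ Gamma0 N, ∀ z : ℍ, ∃ x : ℂ,
      S (γ • z) - S z = -x ∧ R (γ • z) - R z = (starRingEnd ℂ) x := by
    intro γ hγ z
    refine ⟨(A (jConjSL γ • (J • z)) - A (J • z)) - (B (jConjSL γ • (J • z)) - B (J • z)), ?_, ?_⟩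
    · have := key ⟨γ, hγ⟩ z (J • z)
      simp only [hS]
      linear_combination this
    · simp only [hR, refl_smul]
      simp only [refl, map_sub]
      ring
  have hSlim : ∀ δ : SL(2, ℤ), ∃ L : ℂ, Tendsto (fun w : ℍ => S (δ • w)) atImInfty (𝓝 L) := by
    intro δ
    obtain ⟨L₁, h₁⟩ := hA.2.2.2 δ
    obtain ⟨L₂, h₂⟩ := hB.2.2.2 δ
    exact ⟨L₁ + L₂, h₁.add h₂⟩
  have hRlim : ∀ δ : SL(2, ℤ), ∃ L : ℂ, Tendsto (fun w : ℍ => R (δ • w)) atImInfty (𝓝 L) := by
    intro δ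
    obtain ⟨L₁, h₁⟩ := refl_tendsto hA δ
    obtain ⟨L₂, h₂⟩ := refl_tendsto hB δ
    exact ⟨L₁ - L₂, h₁.sub h₂⟩
  have hSper : ∀ (δ : SL(2, ℤ)) (w : ℍ), S (δ • ((ModularGroup.T ^ N) • w)) = S (δ • w) := by
    intro δ w
    simp only [hS, prim_periodic hA, prim_periodic hB]
  have hRper : ∀ (δ : SL(2, ℤ)) (w : ℍ), R (δ • ((ModularGroup.T ^ N) • w)) = R (δ • w) := by
    intro δ w
    simp only [hR, refl_periodic hA, refl_periodic hB]
  -- first combination
  obtain ⟨c₁, hc₁⟩ := const_of_re_invariant (N := N) (fun z => S z + R z) (hSd.add hRd)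
    (by
      intro γ hγ z
      obtain ⟨x, hx₁, hx₂⟩ := htrans γ hγ z
      have h : S (γ • z) + R (γ • z) = S z + R z + (-x + (starRingEnd ℂ) x) := by
        linear_combination hx₁ + hx₂
      rw [h]
      simp)
    (by
      intro δ
      obtain ⟨L₁, h₁⟩ := hSlim δ
      obtain ⟨L₂, h₂⟩ := hRlim δ
      exact ⟨L₁ + L₂, h₁.add h₂⟩)
    (by
      intro δ w
      simp only [hSper, hRper])
  -- second combination
  obtain ⟨c₂, hc₂⟩ := const_of_re_invariant (N := N) (fun z => I * (S z - R z))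
    ((mdifferentiable_const (c := I)).mul (hSd.sub hRd))
    (by
      intro γ hγ z
      obtain ⟨x, hx₁, hx₂⟩ := htrans γ hγ z
      have h : I * (S (γ • z) - R (γ • z)) = I * (S z - R z) + I * (-x - (starRingEnd ℂ) x) := by
        linear_combination I * hx₁ - I * hx₂
      rw [h]
      simp)
    (by
      intro δ
      obtain ⟨L₁, h₁⟩ := hSlim δ
      obtain ⟨L₂, h₂⟩ := hRlim δ
      exact ⟨I * (L₁ - L₂), (h₁.sub h₂).const_mul I⟩)
    (by
      intro δ w
      simp only [hSper, hRper])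
  -- conclude
  have hSc : ∀ z, S z = (c₁ - I * c₂) / 2 := by
    intro z
    have h1 := hc₁ z
    have h2 := hc₂ z
    have hI : I * I = -1 := Complex.I_mul_I
    linear_combination (1 / 2 : ℂ) * h1 - (I / 2) * h2 + (1 / 2 : ℂ) * (S z - R z) * hI
  have hRc : ∀ z, R z = (c₁ + I * c₂) / 2 := by
    intro z
    have h1 := hc₁ z
    have h2 := hc₂ z
    have hI : I * I = -1 := Complex.I_mul_I
    linear_combination (1 / 2 : ℂ) * h1 + (I / 2) * h2 - (1 / 2 : ℂ) * (S z - R z) * hI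
  have hDc : ∀ z, A z - B z = (starRingEnd ℂ) ((c₁ + I * c₂) / 2) := by
    intro z
    have h := hRc (J • z)
    simp only [hR] at h
    rw [← h, map_sub, conj_refl_J, conj_refl_J]
  refine ⟨((c₁ - I * c₂) / 2 + (starRingEnd ℂ) ((c₁ + I * c₂) / 2)) / 2,
    ((c₁ - I * c₂) / 2 - (starRingEnd ℂ) ((c₁ + I * c₂) / 2)) / 2, ?_, ?_⟩
  · intro z
    have h1 := hSc z
    have h2 := hDc z
    simp only [hS] at h1
    linear_combination (1 / 2 : ℂ) * h1 + (1 / 2 : ℂ) * h2
  · intro z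
    have h1 := hSc z
    have h2 := hDc z
    simp only [hS] at h1
    linear_combination (1 / 2 : ℂ) * h1 - (1 / 2 : ℂ) * h2

lemma eq_zero_of_const {f : CuspForm (Gamma0 N) 2} {A : ℍ → ℂ}
    (hA : HasEquivariantPrimitive N f A) {c : ℂ} (hc : ∀ z, A z = c) : f = 0 := by
  apply DFunLike.ext
  intro τ
  have h1 := hA.1 τ
  have h2 : (A ∘ ofComplex) = fun _ => c := by
    funext w
    simp [hc]
  rw [h2] at h1
  have h3 := (hasDerivAt_const (τ : ℂ) c).unique h1
  simpa using h3.symm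

end Inj

open Inj in
/-- WP-P2b: the period pairing `(f, g) ↦ (1 + ι) P f + (1 - ι) P g` is injective. -/
theorem periodHomPair_injective : Function.Injective (periodHomPair N) := by
  obtain ⟨pml, hpml, hdef⟩ := periodHomPair_def N existsPeriodMapLinear
  rw [injective_iff_map_eq_zero]
  rintro ⟨f, g⟩ h0
  obtain ⟨A, hA⟩ := exists_hasEquivariantPrimitive f
  obtain ⟨B, hB⟩ := exists_hasEquivariantPrimitive g
  have key : ∀ (γ : Gamma0 N) (z z' : ℍ),
      (A ((γ : SL(2, ℤ)) • z) - A z) + (A (jConjSL (γ : SL(2, ℤ)) • z') - A z')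
        + ((B ((γ : SL(2, ℤ)) • z) - B z) - (B (jConjSL (γ : SL(2, ℤ)) • z') - B z')) = 0 := by
    intro γ z z'
    have h1 := congrArg (fun ψ : Additive (Gamma0 N) →+ ℂ => ψ (Additive.ofMul γ)) h0
    simp only [hdef, LinearMap.coprod_apply, LinearMap.comp_apply, LinearMap.add_apply,
      LinearMap.sub_apply, LinearMap.id_apply, AddMonoidHom.add_apply, AddMonoidHom.sub_apply,
      charInvolution_apply, hpml, AddMonoidHom.zero_apply, toMul_ofMul] at h1
    rw [periodMap_apply hA γ z, periodMap_apply hB γ z,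
      periodMap_apply hA (jConjGamma0 N γ) z', periodMap_apply hB (jConjGamma0 N γ) z'] at h1
    simpa only [jConjGamma0_coe] using h1
  obtain ⟨c, d, hc, hd⟩ := const_of_key hA hB key
  have hf : f = 0 := eq_zero_of_const hA hc
  have hg : g = 0 := eq_zero_of_const hB hd
  rw [hf, hg]
  rfl

end Fermat.Agent.S21
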