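import Mathlib

/-!
# S21 (Eichler–Shimura): shared definitions for the group-theoretic dimension bound

For a group `G` acting on a finite set `X` (later: `G = SL(2, ℤ)`, `X = SL(2, ℤ) ⧸ Γ₀(N)`),
`act g` is the translation action on functions `X → ℂ`, `nrm g k = ∑_{i<k} act (g^i)`,
and `cocSpace s t k` is the space of pairs `(a, c)` (values of a would-be cocycle on the
generators `s`, `t`) satisfying the norm relations for `s`, `t` and `s * t`.
-/

set_option autoImplicit false

namespace Fermat.Agent.S21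

variable {G X : Type} [Group G] [MulAction G X]

/-- translation action of `g` on functions: `(act g m) x = m (g⁻¹ • x)` -/
def act (g : G) : (X → ℂ) →ₗ[ℂ] (X → ℂ) where
  toFun m := fun x => m (g⁻¹ • x)
  map_add' _ _ := rfl
  map_smul' _ _ := rfl

@[simp] theorem act_apply (g : G) (m : X → ℂ) (x : X) : act g m x = m (g⁻¹ • x) := rfl

theorem act_one (m : X → ℂ) : act (1 : G) m = m := by
  funext x; simp

theorem act_mul (g h : G) (m : X → ℂ) : act (g * h) m = act g (act h m) := by
  funext x; simp [mul_smul]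

/-- the norm operator `∑_{i<k} act (g^i)` -/
def nrm (g : G) (k : ℕ) : (X → ℂ) →ₗ[ℂ] (X → ℂ) := ∑ i ∈ Finset.range k, act (g ^ i)

theorem nrm_apply (g : G) (k : ℕ) (m : X → ℂ) (x : X) :
    nrm g k m x = ∑ i ∈ Finset.range k, m ((g ^ i)⁻¹ • x) := by
  simp [nrm, LinearMap.sum_apply, Finset.sum_apply]

/-- pairs `(a, c)` (candidate values of a cocycle at `s` and `t`) satisfying the norm
relations for `s`, `t` and `s * t` -/
def cocSpace (X : Type) [MulAction G X] (s t : G) (k : ℕ) :
    Submodule ℂ ((X → ℂ) × (X → ℂ)) where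
  carrier := {p | nrm s k p.1 = 0 ∧ nrm t k p.2 = 0 ∧ nrm (s * t) k (p.1 + act s p.2) = 0}
  add_mem' := by
    rintro p q ⟨h1, h2, h3⟩ ⟨h1', h2', h3'⟩
    refine ⟨?_, ?_, ?_⟩
    · simp [h1, h1']
    · simp [h2, h2']
    · have : (p + q).1 + act s (p + q).2 = (p.1 + act s p.2) + (q.1 + act s q.2) := by
        simp only [Prod.fst_add, Prod.snd_add, map_add]; abel
      rw [this, map_add, h3, h3', add_zero]
  zero_mem' := by simp
  smul_mem' := by
    rintro c p ⟨h1, h2, h3⟩
    refine ⟨?_, ?_, ?_⟩
    · simp [h1]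
    · simp [h2]
    · have : (c • p).1 + act s (c • p).2 = c • (p.1 + act s p.2) := by
        simp only [Prod.smul_fst, Prod.smul_snd, map_smul, smul_add]
      rw [this, map_smul, h3, smul_zero]

theorem mem_cocSpace {s t : G} {k : ℕ} {p : (X → ℂ) × (X → ℂ)} :
    p ∈ cocSpace X s t k ↔
      nrm s k p.1 = 0 ∧ nrm t k p.2 = 0 ∧ nrm (s * t) k (p.1 + act s p.2) = 0 := Iff.rfl

/-- number of orbits of the cyclic group generated by `g` on `X` -/
noncomputable def nOrb (X : Type) [MulAction G X] (g : G) : ℕ :=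
  Nat.card (MulAction.orbitRel.Quotient (Subgroup.zpowers g) X)

end Fermat.Agent.S21
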