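import Fermat.Agent.S21.Defs

/-!
# S21 WP-C1: dimension bound for the cocycle space `cocSpace X s t k`

For a group `G` generated by `s`, `t`, acting transitively on a finite set `X` such that
`s ^ k`, `t ^ k`, `(s * t) ^ k` act trivially,
`dim cocSpace + n_s + n_t + n_{st} ≤ 2 |X| + 1`.
-/

set_option autoImplicit false

namespace Fermat.Agent.S21

namespace CocSpace

variable {G X : Type} [Group G] [MulAction G X]

theorem act_eq_self_of_smul (g : G) (hg : ∀ x : X, g • x = x) (m : X → ℂ) : act g m = m := by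
  funext x
  have h : g⁻¹ • x = x := by
    conv_lhs => rw [← hg x]
    simp
  simp [h]

theorem act_pow_of_invariant (g : G) (m : X → ℂ) (hm : act g m = m) (i : ℕ) :
    act (g ^ i) m = m := by
  induction i with
  | zero => simpa using act_one (G := G) m
  | succ i ih => rw [pow_succ, act_mul, hm, ih]

theorem nrm_of_invariant (g : G) (k : ℕ) (m : X → ℂ) (hm : act g m = m) :
    nrm g k m = (k : ℂ) • m := by
  simp only [nrm, LinearMap.sum_apply]
  rw [Finset.sum_congr rfl (fun i _ => act_pow_of_invariant g m hm i)]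
  rw [Finset.sum_const, Finset.card_range, ← Nat.cast_smul_eq_nsmul ℂ]

theorem nrm_act_sub (g : G) (k : ℕ) (hg : ∀ x : X, g ^ k • x = x) (m : X → ℂ) :
    nrm g k (act g m - m) = 0 := by
  have h1 : nrm g k (act g m - m) =
      ∑ i ∈ Finset.range k, (act (g ^ (i + 1)) m - act (g ^ i) m) := by
    simp only [nrm, LinearMap.sum_apply]
    refine Finset.sum_congr rfl (fun i _ => ?_)
    rw [map_sub, pow_succ, act_mul]
  rw [h1, Finset.sum_range_sub (fun i => act (g ^ i) m), act_eq_self_of_smul _ hg, pow_zero,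
    act_one, sub_self]

theorem nrm_act_comm (g : G) (k : ℕ) (m : X → ℂ) : nrm g k (act g m) = act g (nrm g k m) := by
  simp only [nrm, LinearMap.sum_apply, map_sum]
  refine Finset.sum_congr rfl (fun i _ => ?_)
  rw [← act_mul, ← act_mul, ← pow_succ, ← pow_succ']

theorem act_nrm (g : G) (k : ℕ) (hg : ∀ x : X, g ^ k • x = x) (m : X → ℂ) :
    act g (nrm g k m) = nrm g k m := by
  have h := nrm_act_sub g k hg m
  rw [map_sub, sub_eq_zero] at h
  rw [← nrm_act_comm, h]

section fintype

variable [Fintype X]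

/-- the sum functional -/
def sumF (X : Type) [Fintype X] : (X → ℂ) →ₗ[ℂ] ℂ where
  toFun m := ∑ x, m x
  map_add' m m' := by simp [Finset.sum_add_distrib]
  map_smul' c m := by simp [Finset.mul_sum]

@[simp] theorem sumF_apply (m : X → ℂ) : sumF X m = ∑ x, m x := rfl

theorem sumF_act (g : G) (m : X → ℂ) : sumF X (act g m) = sumF X m := by
  simp only [sumF_apply, act_apply]
  exact Fintype.sum_equiv (MulAction.toPerm g⁻¹) _ _ (fun x => rfl)

theorem sumF_nrm (g : G) (k : ℕ) (m : X → ℂ) : sumF X (nrm g k m) = (k : ℂ) * sumF X m := by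
  simp only [nrm, LinearMap.sum_apply, map_sum]
  rw [Finset.sum_congr rfl (fun i _ => sumF_act (g ^ i) m)]
  simp [Finset.sum_const]

/-- the submodule generated by the images of `act s - 1` and `act (s * t) - 1` -/
def augSub (s t : G) : Submodule ℂ (X → ℂ) :=
  LinearMap.range (act (X := X) s - LinearMap.id) ⊔
    LinearMap.range (act (X := X) (s * t) - LinearMap.id)

omit [Fintype X] in
theorem act_sub_mem_augSub (s t : G) (hgen : Subgroup.closure {s, t} = ⊤) (g : G) :
    ∀ m : X → ℂ, act g m - m ∈ augSub (X := X) s t := by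
  have hs : ∀ m : X → ℂ, act s m - m ∈ augSub (X := X) s t := fun m =>
    Submodule.mem_sup_left ⟨m, by simp⟩
  have hst : ∀ m : X → ℂ, act (s * t) m - m ∈ augSub (X := X) s t := fun m =>
    Submodule.mem_sup_right ⟨m, by simp⟩
  have hmul : ∀ g h : G, (∀ m : X → ℂ, act g m - m ∈ augSub (X := X) s t) →
      (∀ m : X → ℂ, act h m - m ∈ augSub (X := X) s t) →
      ∀ m : X → ℂ, act (g * h) m - m ∈ augSub (X := X) s t := by
    intro g h hg hh m
    have : act (g * h) m - m = (act g (act h m) - act h m) + (act h m - m) := by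
      rw [act_mul]; abel
    rw [this]
    exact Submodule.add_mem _ (hg _) (hh _)
  have hinv : ∀ g : G, (∀ m : X → ℂ, act g m - m ∈ augSub (X := X) s t) →
      ∀ m : X → ℂ, act g⁻¹ m - m ∈ augSub (X := X) s t := by
    intro g hg m
    have : act g⁻¹ m - m = -(act g (act g⁻¹ m) - act g⁻¹ m) := by
      rw [← act_mul, mul_inv_cancel, act_one]; abel
    rw [this]
    exact Submodule.neg_mem _ (hg _)
  have ht : ∀ m : X → ℂ, act t m - m ∈ augSub (X := X) s t := by
    have := hmul s⁻¹ (s * t) (hinv s hs) hst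
    simpa using this
  have hmem : g ∈ Subgroup.closure {s, t} := by rw [hgen]; trivial
  induction hmem using Subgroup.closure_induction with
  | mem x hx =>
    rcases hx with rfl | rfl
    · exact hs
    · exact ht
  | one => intro m; rw [act_one, sub_self]; exact Submodule.zero_mem _
  | mul x y _ _ hx hy => exact hmul x y hx hy
  | inv x _ hx => exact hinv x hx

theorem mem_augSub_of_sum_eq_zero [MulAction.IsPretransitive G X] (s t : G)
    (hgen : Subgroup.closure {s, t} = ⊤) (m : X → ℂ) (hm : ∑ x, m x = 0) :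
    m ∈ augSub (X := X) s t := by
  classical
  rcases isEmpty_or_nonempty X with hX | ⟨⟨x0⟩⟩
  · have : m = 0 := by funext x; exact (hX.false x).elim
    rw [this]; exact Submodule.zero_mem _
  · have key : ∀ x : X, (Pi.single x (1 : ℂ) : X → ℂ) - Pi.single x0 1 ∈ augSub (X := X) s t := by
      intro x
      obtain ⟨g, hg⟩ := MulAction.exists_smul_eq G x0 x
      have h := act_sub_mem_augSub (X := X) s t hgen g (Pi.single x0 1)
      have h2 : act g (Pi.single x0 (1 : ℂ) : X → ℂ) = Pi.single x 1 := by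
        funext y
        simp only [act_apply, Pi.single_apply]
        have : g⁻¹ • y = x0 ↔ y = x := by
          rw [inv_smul_eq_iff, hg]
        simp [this]
      rwa [h2] at h
    have hdecomp : m = ∑ x, m x • ((Pi.single x (1 : ℂ) : X → ℂ) - Pi.single x0 1) := by
      have h1 : ∑ x, m x • ((Pi.single x (1 : ℂ) : X → ℂ) - Pi.single x0 1) =
          ∑ x, (Pi.single x (m x) : X → ℂ) - (∑ x, m x) • (Pi.single x0 (1 : ℂ) : X → ℂ) := by
        rw [Finset.sum_smul, ← Finset.sum_sub_distrib]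
        refine Finset.sum_congr rfl (fun x _ => ?_)
        rw [smul_sub]
        congr 1
        funext y
        simp [Pi.single_apply]
      rw [h1, hm, zero_smul, sub_zero, Finset.univ_sum_single]
    rw [hdecomp]
    exact Submodule.sum_mem _ (fun x _ => Submodule.smul_mem _ _ (key x))

theorem exists_preimage [MulAction.IsPretransitive G X] (s t : G)
    (hgen : Subgroup.closure {s, t} = ⊤) (k : ℕ) (hk : 0 < k)
    (hks : ∀ x : X, s ^ k • x = x) (hku : ∀ x : X, (s * t) ^ k • x = x)
    (u v w : X → ℂ) (hu : act s u = u) (hv : act t v = v) (hw : act (s * t) w = w)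
    (hsum : ∑ x, w x = ∑ x, u x + ∑ x, v x) :
    ∃ a c : X → ℂ, nrm s k a = u ∧ nrm t k c = v ∧ nrm (s * t) k (a + act s c) = w := by
  have hk0 : (k : ℂ) ≠ 0 := by exact_mod_cast hk.ne'
  set a0 : X → ℂ := (k : ℂ)⁻¹ • u with ha0
  set c0 : X → ℂ := (k : ℂ)⁻¹ • v with hc0
  set w0 : X → ℂ := nrm (s * t) k (a0 + act s c0) with hw0
  set d : X → ℂ := (k : ℂ)⁻¹ • (w - w0) with hd
  have ha0inv : act s a0 = a0 := by rw [ha0, map_smul, hu]
  have hc0inv : act t c0 = c0 := by rw [hc0, map_smul, hv]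
  have hw0inv : act (s * t) w0 = w0 := act_nrm (s * t) k hku _
  have hdinv : act (s * t) d = d := by rw [hd, map_smul, map_sub, hw, hw0inv]
  have hna0 : nrm s k a0 = u := by
    rw [nrm_of_invariant s k a0 ha0inv, ha0, smul_smul, mul_inv_cancel₀ hk0, one_smul]
  have hnc0 : nrm t k c0 = v := by
    rw [nrm_of_invariant t k c0 hc0inv, hc0, smul_smul, mul_inv_cancel₀ hk0, one_smul]
  have hnd : nrm (s * t) k d = w - w0 := by
    rw [nrm_of_invariant (s * t) k d hdinv, hd, smul_smul, mul_inv_cancel₀ hk0, one_smul]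
  have hsumw0 : sumF X w0 = sumF X w := by
    rw [hw0, sumF_nrm, map_add, sumF_act, ha0, hc0, map_smul, map_smul, smul_eq_mul, smul_eq_mul,
      ← mul_add, ← mul_assoc, mul_inv_cancel₀ hk0, one_mul, sumF_apply, sumF_apply, sumF_apply,
      hsum]
  have hsumd : ∑ x, d x = 0 := by
    have : sumF X d = 0 := by
      rw [hd, map_smul, map_sub, hsumw0, sub_self, smul_zero]
    simpa using this
  have hdmem := mem_augSub_of_sum_eq_zero (X := X) s t hgen d hsumd
  obtain ⟨y1, ⟨m1, rfl⟩, y2, ⟨m2, rfl⟩, hy⟩ := Submodule.mem_sup.1 hdmem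
  simp only [LinearMap.sub_apply, LinearMap.id_coe, id_eq] at hy
  refine ⟨a0 + (act s m1 - m1), c0, ?_, hnc0, ?_⟩
  · rw [map_add, hna0, nrm_act_sub s k hks, add_zero]
  · have h1 : a0 + (act s m1 - m1) + act s c0 =
        (a0 + act s c0) + (d - (act (s * t) m2 - m2)) := by
      rw [← hy]; abel
    rw [h1, map_add, map_sub, nrm_act_sub (s * t) k hku, sub_zero, hnd, ← hw0]
    abel

end fintype

end CocSpace

open CocSpace in
theorem finrank_cocSpace_add_le {G X : Type} [Group G] [Fintype X] [MulAction G X]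
    [MulAction.IsPretransitive G X] (s t : G) (hgen : Subgroup.closure {s, t} = ⊤) (k : ℕ)
    (hk : 0 < k) (hks : ∀ x : X, s ^ k • x = x) (hkt : ∀ x : X, t ^ k • x = x)
    (hku : ∀ x : X, (s * t) ^ k • x = x) :
    Module.finrank ℂ (cocSpace X s t k) + nOrb X s + nOrb X t + nOrb X (s * t) ≤
      2 * Fintype.card X + 1 := by
  classical
  have _ := hkt
  -- the map whose kernel is the cocycle space
  let PiMap : ((X → ℂ) × (X → ℂ)) →ₗ[ℂ] ((X → ℂ) × (X → ℂ) × (X → ℂ)) :=
    ((nrm s k).comp (LinearMap.fst ℂ _ _)).prod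
      (((nrm t k).comp (LinearMap.snd ℂ _ _)).prod
        ((nrm (s * t) k).comp (LinearMap.fst ℂ _ _ + (act s).comp (LinearMap.snd ℂ _ _))))
  have hker : cocSpace X s t k = LinearMap.ker PiMap := by
    ext p
    simp [PiMap, mem_cocSpace]
  have hrn := LinearMap.finrank_range_add_finrank_ker PiMap
  have hdimV : Module.finrank ℂ ((X → ℂ) × (X → ℂ)) = 2 * Fintype.card X := by
    rw [Module.finrank_prod, Module.finrank_fintype_fun_eq_card]; ring
  -- orbit quotients
  let Q : G → Type := fun g => MulAction.orbitRel.Quotient (Subgroup.zpowers g) X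
  let pr : (g : G) → X → Q g := fun g => Quotient.mk''
  have hpr : ∀ g, Function.Surjective (pr g) := fun g => Quotient.mk''_surjective
  have hfin : ∀ g, Finite (Q g) := fun g => Quotient.finite _
  let _ : ∀ g, Fintype (Q g) := fun g => Fintype.ofFinite _
  let pull : (g : G) → (Q g → ℂ) →ₗ[ℂ] (X → ℂ) := fun g => LinearMap.funLeft ℂ ℂ (pr g)
  have hpull_inj : ∀ g, Function.Injective (pull g) := fun g =>
    LinearMap.funLeft_injective_of_surjective ℂ ℂ (pr g) (hpr g)
  have hpull_inv : ∀ g (φ : Q g → ℂ), act g (pull g φ) = pull g φ := by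
    intro g φ
    funext x
    simp only [act_apply, pull, LinearMap.funLeft_apply]
    congr 1
    apply Quotient.sound'
    refine ⟨⟨g⁻¹, Subgroup.inv_mem _ (Subgroup.mem_zpowers g)⟩, rfl⟩
  let Φ : ((Q s → ℂ) × (Q t → ℂ) × (Q (s * t) → ℂ)) →ₗ[ℂ] ((X → ℂ) × (X → ℂ) × (X → ℂ)) :=
    LinearMap.prodMap (pull s) (LinearMap.prodMap (pull t) (pull (s * t)))
  have hΦ : Function.Injective Φ := by
    intro p q hpq
    simp only [Φ, LinearMap.prodMap_apply, Prod.mk.injEq] at hpq
    obtain ⟨h1, h2, h3⟩ := hpq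
    exact Prod.ext (hpull_inj s h1) (Prod.ext (hpull_inj t h2) (hpull_inj (s * t) h3))
  let ℓ : ((Q s → ℂ) × (Q t → ℂ) × (Q (s * t) → ℂ)) →ₗ[ℂ] ℂ :=
    ((sumF X).comp (pull (s * t))).comp ((LinearMap.snd ℂ _ _).comp (LinearMap.snd ℂ _ _))
      - ((sumF X).comp (pull s)).comp (LinearMap.fst ℂ _ _)
      - ((sumF X).comp (pull t)).comp ((LinearMap.fst ℂ _ _).comp (LinearMap.snd ℂ _ _))
  have hrnℓ := LinearMap.finrank_range_add_finrank_ker ℓ
  have hrangeℓ : Module.finrank ℂ (LinearMap.range ℓ) ≤ 1 := by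
    have := Submodule.finrank_le (LinearMap.range ℓ)
    simpa using this
  have hdimD : Module.finrank ℂ ((Q s → ℂ) × (Q t → ℂ) × (Q (s * t) → ℂ)) =
      nOrb X s + nOrb X t + nOrb X (s * t) := by
    rw [Module.finrank_prod, Module.finrank_prod, Module.finrank_fintype_fun_eq_card,
      Module.finrank_fintype_fun_eq_card, Module.finrank_fintype_fun_eq_card]
    simp only [nOrb, Nat.card_eq_fintype_card, Q]
    ring
  have hsub : (LinearMap.ker ℓ).map Φ ≤ LinearMap.range PiMap := by
    rintro _ ⟨⟨φ1, φ2, φ3⟩, hφ, rfl⟩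
    have hφ' : ∑ x, pull (s * t) φ3 x = ∑ x, pull s φ1 x + ∑ x, pull t φ2 x := by
      have h0 : ℓ (φ1, φ2, φ3) = 0 := hφ
      simp only [ℓ, LinearMap.sub_apply, LinearMap.comp_apply, LinearMap.snd_apply,
        LinearMap.fst_apply, sumF_apply] at h0
      linear_combination h0
    obtain ⟨a, c, h1, h2, h3⟩ := exists_preimage (X := X) s t hgen k hk hks hku
      (pull s φ1) (pull t φ2) (pull (s * t) φ3) (hpull_inv s φ1) (hpull_inv t φ2)
      (hpull_inv (s * t) φ3) hφ'
    refine ⟨(a, c), ?_⟩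
    show (nrm s k a, nrm t k c, nrm (s * t) k (a + act s c)) = _
    rw [h1, h2, h3]
    rfl
  have hle : Module.finrank ℂ (LinearMap.ker ℓ) ≤ Module.finrank ℂ (LinearMap.range PiMap) := by
    rw [LinearEquiv.finrank_eq (Submodule.equivMapOfInjective Φ hΦ (LinearMap.ker ℓ))]
    exact Submodule.finrank_mono hsub
  rw [hker]
  omega

end Fermat.Agent.S21
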