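import Fermat.Agent.S21.Defs
import Fermat.Prelude.Def_ModularCurve_PeriodMap

/-!
# S21 WP-C2: Shapiro-type bound for the parabolic homomorphisms of `Γ₀(N)`

`dim parabolicHoms + |X| ≤ dim cocSpace X S T k + 1` for `X = SL(2, ℤ) ⧸ Γ₀(N)`.
-/

set_option autoImplicit false

open CongruenceSubgroup ModularCurve ModularCurve.Period
open scoped MatrixGroups

namespace Fermat.Agent.S21

namespace Shapiro

section cocycles

variable {G X : Type} [Group G] [MulAction G X]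

/-- `c` is a 1-cocycle with values in functions on `X`. -/
def IsCoc (c : G → (X → ℂ)) : Prop := ∀ g h : G, c (g * h) = c g + act g (c h)

theorem IsCoc.one {c : G → (X → ℂ)} (hc : IsCoc c) : c 1 = 0 := by
  have h := hc 1 1
  rw [mul_one, act_one] at h
  simpa using h

theorem IsCoc.pow {c : G → (X → ℂ)} (hc : IsCoc c) (g : G) (k : ℕ) :
    c (g ^ k) = nrm g k (c g) := by
  induction k with
  | zero => simp [hc.one, nrm]
  | succ k ih =>
    rw [pow_succ, hc, ih]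
    simp [nrm, Finset.sum_range_succ]

theorem IsCoc.inv {c : G → (X → ℂ)} (hc : IsCoc c) (g : G) (h : c g = 0) : c g⁻¹ = 0 := by
  have h1 := hc g⁻¹ g
  rw [inv_mul_cancel, hc.one, h, map_zero, add_zero] at h1
  exact h1.symm

theorem IsCoc.eq_zero_of_closure {c : G → (X → ℂ)} (hc : IsCoc c) (S : Set G)
    (hS : Subgroup.closure S = ⊤) (h : ∀ s ∈ S, c s = 0) (g : G) : c g = 0 := by
  have hg : g ∈ Subgroup.closure S := by rw [hS]; trivial
  induction hg using Subgroup.closure_induction with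
  | mem x hx => exact h x hx
  | one => exact hc.one
  | mul x y _ _ hx hy => rw [hc, hx, hy, map_zero, add_zero]
  | inv x _ hx => exact hc.inv x hx

end cocycles

section general

variable {G : Type} [Group G] (Γ : Subgroup G)

/-- the chosen coset representative -/
noncomputable def rep (x : G ⧸ Γ) : G := Quotient.out x

theorem mk_rep (x : G ⧸ Γ) : ((rep Γ x : G) : G ⧸ Γ) = x := QuotientGroup.out_eq' x

theorem cocEl_mem (g : G) (x : G ⧸ Γ) : (rep Γ x)⁻¹ * g * rep Γ (g⁻¹ • x) ∈ Γ := by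
  rw [mul_assoc, ← QuotientGroup.eq, mk_rep]
  have h : ((g * rep Γ (g⁻¹ • x) : G) : G ⧸ Γ) = g • ((rep Γ (g⁻¹ • x) : G) : G ⧸ Γ) := rfl
  rw [h, mk_rep, smul_inv_smul]

/-- the Shapiro element `r(x)⁻¹ g r(g⁻¹ x) ∈ Γ` -/
noncomputable def cocEl (g : G) (x : G ⧸ Γ) : Γ :=
  ⟨(rep Γ x)⁻¹ * g * rep Γ (g⁻¹ • x), cocEl_mem Γ g x⟩

theorem cocEl_mul (g h : G) (x : G ⧸ Γ) :
    cocEl Γ (g * h) x = cocEl Γ g x * cocEl Γ h (g⁻¹ • x) := by
  apply Subtype.ext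
  show (rep Γ x)⁻¹ * (g * h) * rep Γ ((g * h)⁻¹ • x) =
    ((rep Γ x)⁻¹ * g * rep Γ (g⁻¹ • x)) * ((rep Γ (g⁻¹ • x))⁻¹ * h * rep Γ (h⁻¹ • g⁻¹ • x))
  rw [mul_inv_rev, mul_smul]
  group

/-- the Shapiro cocycle of a homomorphism `ψ : Γ → ℂ` -/
noncomputable def zfun (ψ : Additive Γ →+ ℂ) (g : G) : (G ⧸ Γ) → ℂ :=
  fun x => ψ (Additive.ofMul (cocEl Γ g x))

/-- the Shapiro cocycle twisted by the coboundary of `m` -/
noncomputable def cfun (ψ : Additive Γ →+ ℂ) (m : G ⧸ Γ → ℂ) (g : G) : (G ⧸ Γ) → ℂ :=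
  zfun Γ ψ g + act g m - m

theorem cfun_apply (ψ : Additive Γ →+ ℂ) (m : G ⧸ Γ → ℂ) (g : G) (x : G ⧸ Γ) :
    cfun Γ ψ m g x = ψ (Additive.ofMul (cocEl Γ g x)) + m (g⁻¹ • x) - m x := rfl

theorem isCoc_cfun (ψ : Additive Γ →+ ℂ) (m : G ⧸ Γ → ℂ) : IsCoc (cfun Γ ψ m) := by
  intro g h
  funext x
  simp only [cfun_apply, Pi.add_apply, act_apply, cocEl_mul, ofMul_mul, map_add, mul_inv_rev,
    mul_smul]
  ring

theorem cfun_add (ψ ψ' : Additive Γ →+ ℂ) (m m' : G ⧸ Γ → ℂ) (g : G) :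
    cfun Γ (ψ + ψ') (m + m') g = cfun Γ ψ m g + cfun Γ ψ' m' g := by
  funext x
  simp only [cfun_apply, Pi.add_apply, AddMonoidHom.add_apply]
  ring

theorem cfun_smul (a : ℂ) (ψ : Additive Γ →+ ℂ) (m : G ⧸ Γ → ℂ) (g : G) :
    cfun Γ (a • ψ) (a • m) g = a • cfun Γ ψ m g := by
  funext x
  simp only [cfun_apply, Pi.smul_apply, AddMonoidHom.smul_apply, smul_eq_mul]
  ring

/-- the map `(ψ, m) ↦ (c_{ψ,m}(s), c_{ψ,m}(t))` -/
noncomputable def Theta (s t : G) :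
    ((Additive Γ →+ ℂ) × (G ⧸ Γ → ℂ)) →ₗ[ℂ] ((G ⧸ Γ → ℂ) × (G ⧸ Γ → ℂ)) where
  toFun p := (cfun Γ p.1 p.2 s, cfun Γ p.1 p.2 t)
  map_add' p q := by
    simp only [Prod.fst_add, Prod.snd_add, cfun_add, Prod.mk_add_mk]
  map_smul' a p := by
    simp only [Prod.smul_fst, Prod.smul_snd, cfun_smul, RingHom.id_apply, Prod.smul_mk]

theorem Theta_apply (s t : G) (p : (Additive Γ →+ ℂ) × (G ⧸ Γ → ℂ)) :
    Theta Γ s t p = (cfun Γ p.1 p.2 s, cfun Γ p.1 p.2 t) := rfl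

/-- the kernel of `Theta` consists of pairs `(0, const)` -/
theorem eq_zero_of_Theta_eq_zero (s t : G) (hgen : Subgroup.closure {s, t} = ⊤)
    (ψ : Additive Γ →+ ℂ) (m : G ⧸ Γ → ℂ) (h : Theta Γ s t (ψ, m) = 0) :
    ψ = 0 ∧ ∀ x, m x = m ((1 : G) : G ⧸ Γ) := by
  rw [Theta_apply, Prod.mk_eq_zero] at h
  have hc : ∀ g : G, cfun Γ ψ m g = 0 := by
    refine (isCoc_cfun Γ ψ m).eq_zero_of_closure {s, t} hgen ?_
    intro g hg
    rcases hg with rfl | rfl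
    · exact h.1
    · exact h.2
  have hψ : ψ = 0 := by
    apply AddMonoidHom.ext
    intro γ'
    obtain ⟨γ, rfl⟩ := Additive.ofMul.surjective γ'
    set x0 : G ⧸ Γ := ((1 : G) : G ⧸ Γ) with hx0
    have hfix : (γ : G)⁻¹ • x0 = x0 := by
      show (((γ : G)⁻¹ * 1 : G) : G ⧸ Γ) = ((1 : G) : G ⧸ Γ)
      rw [QuotientGroup.eq]
      simp
    have hr0 : rep Γ x0 ∈ Γ := by
      have h1 : ((rep Γ x0 : G) : G ⧸ Γ) = ((1 : G) : G ⧸ Γ) := mk_rep Γ x0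
      rw [QuotientGroup.eq] at h1
      simpa using h1
    have hel : cocEl Γ (γ : G) x0 = (⟨rep Γ x0, hr0⟩ : Γ)⁻¹ * γ * ⟨rep Γ x0, hr0⟩ := by
      apply Subtype.ext
      show (rep Γ x0)⁻¹ * (γ : G) * rep Γ ((γ : G)⁻¹ • x0) = (rep Γ x0)⁻¹ * (γ : G) * rep Γ x0
      rw [hfix]
    have h0 := congrFun (hc (γ : G)) x0
    rw [cfun_apply, hfix, hel] at h0
    simp only [ofMul_mul, ofMul_inv, map_add, map_neg, Pi.zero_apply] at h0
    simp only [AddMonoidHom.zero_apply]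
    linear_combination h0
  refine ⟨hψ, ?_⟩
  intro x
  obtain ⟨g, rfl⟩ := QuotientGroup.mk_surjective x
  have h0 := congrFun (hc g) ((g : G) : G ⧸ Γ)
  rw [cfun_apply, hψ] at h0
  have hg : g⁻¹ • ((g : G) : G ⧸ Γ) = ((1 : G) : G ⧸ Γ) := by
    show ((g⁻¹ * g : G) : G ⧸ Γ) = _
    rw [inv_mul_cancel]
  rw [hg] at h0
  simp only [AddMonoidHom.zero_apply, zero_add, Pi.zero_apply] at h0
  linear_combination -h0

/-- the cocycle vanishes at `g ^ k` when `g ^ k` acts trivially and `ψ` kills the conjugates of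
`g ^ k` lying in `Γ` -/
theorem cfun_pow_eq_zero (ψ : Additive Γ →+ ℂ) (m : G ⧸ Γ → ℂ) (g : G) (k : ℕ)
    (hg : ∀ x : G ⧸ Γ, g ^ k • x = x)
    (hψ : ∀ (γ : Γ) (r : G), (γ : G) = r⁻¹ * g ^ k * r → ψ (Additive.ofMul γ) = 0) :
    cfun Γ ψ m (g ^ k) = 0 := by
  funext x
  have hx : (g ^ k)⁻¹ • x = x := by rw [inv_smul_eq_iff, hg]
  have h1 : ((cocEl Γ (g ^ k) x : Γ) : G) = (rep Γ x)⁻¹ * g ^ k * rep Γ x := by
    show (rep Γ x)⁻¹ * g ^ k * rep Γ ((g ^ k)⁻¹ • x) = _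
    rw [hx]
  rw [cfun_apply, hx, hψ _ _ h1]
  simp

/-- torsion elements are killed by homomorphisms to `ℂ` -/
theorem map_eq_zero_of_pow_eq_one (ψ : Additive Γ →+ ℂ) (γ : Γ) (n : ℕ) (hn : 0 < n)
    (h : γ ^ n = 1) : ψ (Additive.ofMul γ) = 0 := by
  have h1 : n • ψ (Additive.ofMul γ) = 0 := by
    rw [← map_nsmul, ← ofMul_pow, h, ofMul_one, map_zero]
  rw [nsmul_eq_mul] at h1
  rcases mul_eq_zero.1 h1 with h2 | h2
  · exact absurd (by exact_mod_cast h2) hn.ne'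
  · exact h2

theorem map_conj_pow_eq_zero (ψ : Additive Γ →+ ℂ) (g : G) (n : ℕ) (hn : 0 < n)
    (hgn : g ^ n = 1) (k : ℕ) (γ : Γ) (r : G) (h : (γ : G) = r⁻¹ * g ^ k * r) :
    ψ (Additive.ofMul γ) = 0 := by
  refine map_eq_zero_of_pow_eq_one Γ ψ γ n hn ?_
  apply Subtype.ext
  rw [Subgroup.coe_pow, h, Subgroup.coe_one]
  have h2 := conj_pow (a := r⁻¹) (b := g ^ k) (i := n)
  rw [inv_inv] at h2
  rw [h2, ← pow_mul, mul_comm, pow_mul, hgn, one_pow, mul_one, inv_mul_cancel]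

end general

theorem S_pow_four : (ModularGroup.S : SL(2, ℤ)) ^ 4 = 1 := by
  apply Subtype.ext
  rw [Matrix.SpecialLinearGroup.coe_pow, ModularGroup.coe_S, Matrix.SpecialLinearGroup.coe_one]
  simp [pow_succ, Matrix.one_fin_two]

theorem ST_pow_six : (ModularGroup.S * ModularGroup.T : SL(2, ℤ)) ^ 6 = 1 := by
  apply Subtype.ext
  rw [Matrix.SpecialLinearGroup.coe_pow, Matrix.SpecialLinearGroup.coe_mul, ModularGroup.coe_S,
    ModularGroup.coe_T, Matrix.SpecialLinearGroup.coe_one]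
  simp [pow_succ, Matrix.one_fin_two]

theorem trace_conj_T_pow (r : SL(2, ℤ)) (k : ℕ) :
    ((r⁻¹ * ModularGroup.T ^ k * r : SL(2, ℤ)) : Matrix (Fin 2) (Fin 2) ℤ).trace = 2 := by
  rw [Matrix.SpecialLinearGroup.coe_mul, Matrix.trace_mul_comm,
    ← Matrix.SpecialLinearGroup.coe_mul, mul_inv_cancel_left, ← zpow_natCast,
    ModularGroup.coe_T_zpow, Matrix.trace_fin_two_of]
  norm_num

end Shapiro

open Shapiro in
theorem finrank_parabolicHoms_add_card_le (N : ℕ) [NeZero N] (k : ℕ) (hk : 0 < k)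
    (hkX : ∀ (g : SL(2, ℤ)) (x : SL(2, ℤ) ⧸ Gamma0 N), g ^ k • x = x) :
    Module.Finite ℂ (parabolicHoms ℂ (Gamma0 N) ℂ) ∧
      Module.finrank ℂ (parabolicHoms ℂ (Gamma0 N) ℂ) + Nat.card (SL(2, ℤ) ⧸ Gamma0 N) ≤
        Module.finrank ℂ
          (cocSpace (SL(2, ℤ) ⧸ Gamma0 N) ModularGroup.S ModularGroup.T k) + 1 := by
  classical
  have _ := hk
  have hfinX : Finite (SL(2, ℤ) ⧸ Gamma0 N) := inferInstance
  let _ : Fintype (SL(2, ℤ) ⧸ Gamma0 N) := Fintype.ofFinite _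
  have hgen : Subgroup.closure {ModularGroup.S, ModularGroup.T} = (⊤ : Subgroup SL(2, ℤ)) :=
    SpecialLinearGroup.SL2Z_generators
  let Θ : ((parabolicHoms ℂ (Gamma0 N) ℂ) × (SL(2, ℤ) ⧸ Gamma0 N → ℂ)) →ₗ[ℂ]
      ((SL(2, ℤ) ⧸ Gamma0 N → ℂ) × (SL(2, ℤ) ⧸ Gamma0 N → ℂ)) :=
    (Theta (Gamma0 N) ModularGroup.S ModularGroup.T).comp
      (LinearMap.prodMap (parabolicHoms ℂ (Gamma0 N) ℂ).subtype LinearMap.id)
  have hΘ : ∀ p : (parabolicHoms ℂ (Gamma0 N) ℂ) × (SL(2, ℤ) ⧸ Gamma0 N → ℂ),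
      Θ p = Theta (Gamma0 N) ModularGroup.S ModularGroup.T ((p.1 : Additive (Gamma0 N) →+ ℂ), p.2) :=
    fun p => rfl
  have hker : ∀ p : (parabolicHoms ℂ (Gamma0 N) ℂ) × (SL(2, ℤ) ⧸ Gamma0 N → ℂ), Θ p = 0 →
      p.1 = 0 ∧ ∀ x, p.2 x = p.2 ((1 : SL(2, ℤ)) : SL(2, ℤ) ⧸ Gamma0 N) := by
    intro p hp
    rw [hΘ] at hp
    obtain ⟨h1, h2⟩ := eq_zero_of_Theta_eq_zero (Gamma0 N) _ _ hgen _ _ hp
    exact ⟨Subtype.ext h1, h2⟩
  -- finite-dimensionality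
  have hfin : Module.Finite ℂ (parabolicHoms ℂ (Gamma0 N) ℂ) := by
    let ι : (parabolicHoms ℂ (Gamma0 N) ℂ) →ₗ[ℂ]
        ((SL(2, ℤ) ⧸ Gamma0 N → ℂ) × (SL(2, ℤ) ⧸ Gamma0 N → ℂ)) :=
      Θ.comp (LinearMap.inl ℂ _ _)
    have hι : Function.Injective ι := by
      rw [injective_iff_map_eq_zero]
      intro ψ hψ
      exact (hker (ψ, 0) hψ).1
    exact Module.Finite.of_injective ι hι
  refine ⟨hfin, ?_⟩
  -- the range lies in the cocycle space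
  have hrange : LinearMap.range Θ ≤
      cocSpace (SL(2, ℤ) ⧸ Gamma0 N) ModularGroup.S ModularGroup.T k := by
    rintro _ ⟨p, rfl⟩
    rw [hΘ, Theta_apply, mem_cocSpace]
    have hpar : IsParabolicHom (Gamma0 N) (p.1 : Additive (Gamma0 N) →+ ℂ) := p.1.2
    have hc := isCoc_cfun (Gamma0 N) (p.1 : Additive (Gamma0 N) →+ ℂ) p.2
    refine ⟨?_, ?_, ?_⟩
    · rw [← hc.pow]
      exact cfun_pow_eq_zero (Gamma0 N) _ _ _ k (hkX _)
        (fun γ r h => map_conj_pow_eq_zero (Gamma0 N) _ _ 4 (by norm_num) S_pow_four k γ r h)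
    · rw [← hc.pow]
      refine cfun_pow_eq_zero (Gamma0 N) _ _ _ k (hkX _) (fun γ r h => ?_)
      apply hpar γ
      rw [h, trace_conj_T_pow]
      norm_num
    · rw [← hc, ← hc.pow]
      exact cfun_pow_eq_zero (Gamma0 N) _ _ _ k (hkX _)
        (fun γ r h => map_conj_pow_eq_zero (Gamma0 N) _ _ 6 (by norm_num) ST_pow_six k γ r h)
  -- the kernel is at most one-dimensional
  have hkerle : Module.finrank ℂ (LinearMap.ker Θ) ≤ 1 := by
    let φ : (LinearMap.ker Θ) →ₗ[ℂ] ℂ :=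
      ((LinearMap.proj ((1 : SL(2, ℤ)) : SL(2, ℤ) ⧸ Gamma0 N)).comp (LinearMap.snd ℂ _ _)).comp
        (LinearMap.ker Θ).subtype
    have hφ : Function.Injective φ := by
      rw [injective_iff_map_eq_zero]
      intro w hw
      obtain ⟨h1, h2⟩ := hker w.1 w.2
      apply Subtype.ext
      refine Prod.ext h1 ?_
      funext x
      rw [h2 x]
      exact hw
    have := LinearMap.finrank_le_finrank_of_injective hφ
    simpa using this
  have hrn := LinearMap.finrank_range_add_finrank_ker Θ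
  have hdim : Module.finrank ℂ ((parabolicHoms ℂ (Gamma0 N) ℂ) × (SL(2, ℤ) ⧸ Gamma0 N → ℂ)) =
      Module.finrank ℂ (parabolicHoms ℂ (Gamma0 N) ℂ) + Nat.card (SL(2, ℤ) ⧸ Gamma0 N) := by
    rw [Module.finrank_prod, Module.finrank_fintype_fun_eq_card, Nat.card_eq_fintype_card]
  have hle := Submodule.finrank_mono hrange
  omega

end Fermat.Agent.S21
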